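import Fermat.Agent.RT.Global.EulerFromLocal

/-!
# The Greenberg–Wiles count with an arbitrary local bound at `p`

One dual space serves all conditions: if the local classes at `p` of a condition have dimension
at most `h⁰ + c`, its Selmer classes plus one plus the local invariants are at most `c` plus the
number of Taylor–Wiles primes plus the dual classes killed at them.
-/

set_option autoImplicit false

noncomputable section

namespace Fermat.Agent.Lifting.Rings

open IsLocalRing Fermat.Agent.RT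
open Deformation (Mat Γ)

local notation "ℚ̄" => AlgebraicClosure ℚ

variable {O : Type} [CommRing O] [IsLocalRing O]

/-- The count for one condition and any local bound at `p`, with a dual space that is independent
of the condition. -/
theorem exists_dual_selSpace_add_le (p : ℕ) (rbar : Γ →* Mat (ResidueField O)) (S : Finset ℕ)
    (P₀ : ValuationSubring ℚ̄) (hGW : AdjointGW p rbar S P₀) {s : ℕ} (ℓ : Fin s → ℕ)
    (P : Fin s → ValuationSubring ℚ̄) (hinj : Function.Injective ℓ)
    (hℓ : ∀ i, ℓ i ∈ S ∧ ℓ i ≠ p ∧ (P i).LiesOverPrime (ℓ i))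
    (hcov : ∀ l ∈ S, l = p ∨ ∃ i, ℓ i = l) :
    ∃ (V : Submodule (ResidueField O) (Γ → Mat (ResidueField O))) (U : Finset ℕ),
      FiniteDimensional (ResidueField O) V ∧
      (∀ ψ ∈ V, IsTwistedCocycle rbar.toHomUnits ψ ∧ (∀ g, (ψ g).trace = 0) ∧
        ∃ L : IntermediateField ℚ ℚ̄, FiniteDimensional ℚ L ∧
          ∀ g t : Γ, (∀ x ∈ L, t x = x) → rbar (g * t) = rbar g ∧ ψ (g * t) = ψ g) ∧
      (∀ ψ ∈ V, (∃ X : Mat (ResidueField O), X.trace = 0 ∧
        ∀ g, ψ g = (rbar g).det • (rbar g * X * rbar g⁻¹) - X) → ψ = 0) ∧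
      ∀ Q : Finset ℕ, (∀ q ∈ Q, q ∉ S ∪ U ∧ IsTWPrime rbar.toHomUnits p 1 q) →
        ∀ (𝒟 : ∀ ⦃A : Type⦄ [CommRing A] [IsLocalRing A] [Algebra O A], GaloisRepAdic A → Prop),
        (∀ ρ : GaloisRepAdic (DualNumber (ResidueField O)), 𝒟 ρ →
          ∀ l : ℕ, l.Prime → l ∉ S ∪ Q → ρ.IsUnramifiedAt l) →
        ∀ c : ℕ,
        FiniteDimensional (ResidueField O) (localClasses rbar (P₀.decompositionSubgroup ℚ)
          (Submodule.span (ResidueField O) (tangentSet 𝒟 rbar))) →
        Module.finrank (ResidueField O) (localClasses rbar (P₀.decompositionSubgroup ℚ)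
            (Submodule.span (ResidueField O) (tangentSet 𝒟 rbar))) ≤
          Module.finrank (ResidueField O)
            ↥(commutantSpace rbar (P₀.decompositionSubgroup ℚ) ⊓ traceZero (ResidueField O)) + c →
        FiniteDimensional (ResidueField O)
          ((selSpace 𝒟 rbar fun i => (P i).decompositionSubgroup ℚ).map
            (LinearMap.range (adCoboundary rbar)).mkQ) ∧
        ∀ V' : Submodule (ResidueField O) (Γ → Mat (ResidueField O)),
          (∀ ψ, ψ ∈ V' ↔ ψ ∈ V ∧ ∀ q ∈ Q, ∀ P' : ValuationSubring ℚ̄, P'.LiesOverPrime q →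
            ∀ φ : Γ, P'.IsFrobeniusAt φ q → (ψ φ * rbar φ).trace = 0) →
          Module.finrank (ResidueField O)
              ((selSpace 𝒟 rbar fun i => (P i).decompositionSubgroup ℚ).map
                (LinearMap.range (adCoboundary rbar)).mkQ) + 1 +
            ∑ i, (Module.finrank (ResidueField O)
              (commutantSpace rbar ((P i).decompositionSubgroup ℚ)) - 1) ≤
          Q.card + Module.finrank (ResidueField O) V' + c := by
  obtain ⟨V, U, hV, hV1, hV2, hgw⟩ := hGW
  refine ⟨V, U, hV, hV1, hV2, fun Q hQ 𝒟 hur c hfl hl => ?_⟩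
  set W := selSpace 𝒟 rbar fun i => (P i).decompositionSubgroup ℚ
  have hW : ∀ Z ∈ W, IsAdjointClass rbar (S ∪ Q) Z := by
    intro Z hZ
    induction hZ using Submodule.span_induction with
    | mem x hx =>
      obtain ⟨hx, -⟩ := hx
      refine ⟨hx.1, hx.2.1, ?_, fun l hl' hlT P' hP' τ hτ =>
        (eq_one_and_eq_zero_of_mem_inertia hx (fun ρ hρ => hur ρ hρ l hl' hlT) hP' hτ).2⟩
      obtain ⟨L, hL, h⟩ := exists_finiteLevel_of_mem_tangentSet hx
      exact ⟨L, hL, fun g t ht => (h g t ht).2⟩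
    | zero =>
      exact ⟨fun g => by simp, fun g h => by simp,
        ⟨⊥, inferInstance, fun g t _ => rfl⟩, fun _ _ _ _ _ _ _ => rfl⟩
    | add a b _ _ ha hb =>
      obtain ⟨a1, a2, ⟨L, hL, a3⟩, a4⟩ := ha
      obtain ⟨b1, b2, ⟨L', hL', b3⟩, b4⟩ := hb
      refine ⟨fun g => ?_, fun g h => ?_, ⟨L ⊔ L', inferInstance, fun g t ht => ?_⟩,
        fun l hl hlT P' hP' τ hτ => ?_⟩
      · simp [a1, b1]
      · simp only [Pi.add_apply, a2, b2, mul_add, add_mul]
        abel
      · simp only [Pi.add_apply, a3 g t fun x hx => ht x ((le_sup_left : L ≤ L ⊔ L') hx),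
          b3 g t fun x hx => ht x ((le_sup_right : L' ≤ L ⊔ L') hx)]
      · simp [a4 l hl hlT P' hP' τ hτ, b4 l hl hlT P' hP' τ hτ]
    | smul a x _ ha =>
      obtain ⟨a1, a2, ⟨L, hL, a3⟩, a4⟩ := ha
      refine ⟨fun g => ?_, fun g h => ?_, ⟨L, hL, fun g t ht => ?_⟩,
        fun l hl hlT P' hP' τ hτ => ?_⟩
      · simp [a1]
      · simp [a2, smul_add]
      · simp [a3 g t ht]
      · simp [a4 l hl hlT P' hP' τ hτ]
  have htriv : ∀ Z ∈ W, ∀ i, ∃ X, ∀ d ∈ (P i).decompositionSubgroup ℚ,
      Z d = adCoboundary rbar X d := by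
    intro Z hZ i
    induction hZ using Submodule.span_induction with
    | mem x hx => exact hx.2 i
    | zero => exact ⟨0, fun d _ => by simp⟩
    | add a b _ _ ha hb =>
      obtain ⟨X, hX⟩ := ha
      obtain ⟨Y, hY⟩ := hb
      exact ⟨X + Y, fun d hd => by simp [hX d hd, hY d hd]⟩
    | smul a x _ ha =>
      obtain ⟨X, hX⟩ := ha
      exact ⟨a • X, fun d hd => by simp [hX d hd]⟩
  obtain ⟨hfd, hdim⟩ := hgw Q hQ W hW s ℓ P hinj hℓ hcov htriv
  refine ⟨hfd, fun V' hV' => ?_⟩
  have h1 := hdim V' hV'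
  have hle : localClasses rbar (P₀.decompositionSubgroup ℚ) W ≤
      localClasses rbar (P₀.decompositionSubgroup ℚ)
        (Submodule.span (ResidueField O) (tangentSet 𝒟 rbar)) :=
    Submodule.map_mono (Submodule.map_mono (Submodule.span_mono fun Z hZ => hZ.1))
  have h2 := Submodule.finrank_mono hle
  beta_reduce at h1 ⊢
  omega

end Fermat.Agent.Lifting.Rings
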