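import Fermat.Agent.Lifting.Rings.Generic
import Fermat.Agent.Lifting.Rings.SharpEuler

/-!
# Positivity of the number of Taylor–Wiles primes

The Greenberg–Wiles inequality for the zero space makes the dual space nonzero.
-/

set_option autoImplicit false

noncomputable section

namespace Fermat.Agent.Lifting.Rings

open IsLocalRing Fermat.Agent.RT GaloisRep
open Deformation (Mat matOf mapRep Γ)

local notation "ℚ̄" => AlgebraicClosure ℚ

variable {O : Type} [CommRing O] [IsDomain O] [IsDiscreteValuationRing O]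
  [IsAdicComplete (maximalIdeal O) O] [Finite (ResidueField O)]

/-- At every depth: Taylor–Wiles primes avoiding `S ∪ S₀` and a universal ring whose framed version
is presented over the local coordinates at `S \ {p}`; the number of primes is positive. -/
theorem exists_taylorWilesRings_pos (p : ℕ) [Fact p.Prime] (hp2 : p ≠ 2)
    (hpO : (p : O) ∈ maximalIdeal O)
    (ρbar : ResidualGaloisRep (ResidueField O)) (habs : ρbar.IsAbsolutelyIrreducible)
    (hdet : (GaloisRepAdic.ofResidualGaloisRep ρbar).DetIsCyclotomic p)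
    (hTW : ∀ (K : Type) [Field K] [Algebra (ResidueField O) K] (G : Subgroup Γ), G.index = 2 →
      ∀ V : Submodule K (ρbar.baseChange K).V,
        (∀ σ ∈ G, ∀ x ∈ V, (ρbar.baseChange K).ρ σ x ∈ V) → V = ⊥ ∨ V = ⊤)
    (bbar : Module.Basis (Fin 2) (ResidueField O) ρbar.V)
    (𝒟 : Finset ℕ → ∀ ⦃A : Type⦄ [CommRing A] [IsLocalRing A] [Algebra O A],
      GaloisRepAdic A → Prop)
    (h𝒟 : ∀ Q, IsDeformationCondition O (𝒟 Q))
    (h𝒟det : ∀ Q, ∀ ⦃A : Type⦄ [CommRing A] [IsLocalRing A] [Algebra O A] ⦃ρ : GaloisRepAdic A⦄,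
      𝒟 Q ρ → ρ.DetIsCyclotomic p)
    (S : Finset ℕ)
    (h𝒟ur : ∀ Q, ∀ ⦃A : Type⦄ [CommRing A] [IsLocalRing A] [Algebra O A] ⦃ρ : GaloisRepAdic A⦄,
      𝒟 Q ρ → ∀ l : ℕ, l.Prime → l ∉ S ∪ Q → ρ.IsUnramifiedAt l)
    (hbar : ∀ Q, 𝒟 Q (GaloisRepAdic.ofResidualGaloisRep ρbar))
    (P₀ : ValuationSubring ℚ̄) (hGW : AdjointGW p (matOf ρbar.ρ bbar) S P₀)
    (hloc : LocalBoundAtP (matOf ρbar.ρ bbar) 𝒟 P₀)
    {s : ℕ} (ℓ : Fin s → ℕ) (hinj : Function.Injective ℓ)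
    (hℓ : ∀ i, ℓ i ∈ S ∧ ℓ i ≠ p ∧ (ℓ i).Prime) (hcov : ∀ l ∈ S, l = p ∨ ∃ i, ℓ i = l)
    (T : ∀ i, TamePair p (ℓ i))
    (hres : ∀ i, ∀ τ ∈ (T i).A.inertiaSubgroupIn ℚ, ∃ k : ℕ, ρbar.ρ τ ^ p ^ k = 1)
    (el : Fin s → Fin 2 → Γ) (hel0 : ∀ i, el i 0 = (T i).F) (hel1 : ∀ i, el i 1 = (T i).σ)
    (lift0 : Fin s → Fin 2 → Mat O)
    (hlift0 : ∀ i e, (lift0 i e).map (residue O) = matOf ρbar.ρ bbar (el i e))
    (S₀ : Finset ℕ) :
    ∃ r : ℕ, 0 < r ∧ ∀ n : ℕ, ∃ qv : Fin r → ℕ, Function.Injective qv ∧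
      (∀ i, qv i ∉ S ∧ qv i ∉ S₀ ∧
        IsTWPrime (matOf ρbar.ρ bbar).toHomUnits p (n + 1) (qv i)) ∧
      ∃ (D : DeformationRingData O ρbar (𝒟 (Finset.univ.image qv)))
        (b : Module.Basis (Fin 2) D.R D.ρ.V),
        residueMat D b = mapRep (ResidueField.map (algebraMap O D.R)) (matOf ρbar.ρ bbar) ∧
        ∃ Φ : MvPowerSeries (LocVar s ⊕ Fin (r + (s - 1))) O →ₐ[O]
            MvPowerSeries (FrameVar s) D.R,
          Function.Surjective Φ ∧ ∀ i e a c, Φ (MvPowerSeries.X (Sum.inl (i, e, a, c))) =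
            frameConj D.R s i (matOf D.ρ.ρ b (el i e)) a c -
              algebraMap O (MvPowerSeries (FrameVar s) D.R) (lift0 i e a c) := by
  have hfin := factorsThroughFiniteLevel_matOf ρbar bbar
  have htame : ∀ i, ∀ τ ∈ (T i).A.inertiaSubgroupIn ℚ,
      ∃ k : ℕ, matOf ρbar.ρ bbar τ ^ p ^ k = 1 := fun i τ hτ => by
    obtain ⟨k, hk⟩ := hres i τ hτ
    exact ⟨k, by rw [← map_pow, RT.matOf_eq_one_iff, map_pow, hk]⟩
  classical
  have : CharP (ResidueField O) p := (CharP.charP_iff_prime_eq_zero Fact.out).mpr (by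
    rw [← map_natCast (residue O), residue_eq_zero_iff]; exact hpO)
  obtain ⟨V, U, hVfin, hV, hVinj, hbound⟩ := exists_dual_selSpace_add_le p (matOf ρbar.ρ bbar) S P₀
    hGW ℓ (fun i => (T i).A) hinj (fun i => ⟨(hℓ i).1, (hℓ i).2.1, (T i).hA⟩) hcov
  refine ⟨Module.finrank (ResidueField O) V, ?_, fun n => ?_⟩
  · let 𝒟₀ : ∀ ⦃A : Type⦄ [CommRing A] [IsLocalRing A] [Algebra O A], GaloisRepAdic A → Prop :=
      fun _ _ _ _ _ => False
    have h0 : Submodule.span (ResidueField O) (tangentSet 𝒟₀ (matOf ρbar.ρ bbar)) = ⊥ := by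
      rw [Submodule.span_eq_bot]
      rintro Z ⟨-, -, _r, _hr, -, h⟩
      exact h.elim
    have hl0 : localClasses (matOf ρbar.ρ bbar) (P₀.decompositionSubgroup ℚ)
        (Submodule.span (ResidueField O) (tangentSet 𝒟₀ (matOf ρbar.ρ bbar))) = ⊥ := by
      rw [h0, localClasses, Submodule.map_bot, Submodule.map_bot]
    obtain ⟨-, hdim⟩ := hbound ∅ (by simp) 𝒟₀ (fun _ h => h.elim) 0
      (by rw [hl0]; infer_instance) (by rw [hl0]; simp)
    have h1 := hdim V (by simp)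
    simp only [Finset.card_empty] at h1
    omega
  obtain ⟨qv, hinjq, hqv, hker⟩ := exists_taylorWilesSet ρbar bbar p hp2 habs hdet
    (fun K _ _ G hG => hTW K G hG) V hV hVinj (S ∪ S₀ ∪ U) n
  refine ⟨qv, hinjq, fun i => ⟨fun h => (hqv i).1 (Finset.mem_union_left _ (Finset.mem_union_left _ h)),
    fun h => (hqv i).1 (Finset.mem_union_left _ (Finset.mem_union_right _ h)), (hqv i).2⟩, ?_⟩
  have hTQ : ∀ q ∈ Finset.univ.image qv,
      q ∉ S ∪ U ∧ IsTWPrime (matOf ρbar.ρ bbar).toHomUnits p 1 q := fun q hq => by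
    obtain ⟨i, -, rfl⟩ := Finset.mem_image.mp hq
    obtain ⟨hS, hprime, hne, hdvd, hlocq⟩ := hqv i
    exact ⟨fun h => hS (Finset.union_subset_union Finset.subset_union_left subset_rfl h), hprime,
      hne, (pow_dvd_pow p (Nat.le_add_left 1 n)).trans hdvd, hlocq⟩
  obtain ⟨hfl, hl⟩ := hloc (Finset.univ.image qv)
  obtain ⟨hfd, hdim⟩ := hbound (Finset.univ.image qv) hTQ (𝒟 (Finset.univ.image qv))
    (fun ρ hρ => h𝒟ur _ hρ) 1 hfl hl
  specialize hdim ⊥ fun ψ => by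
    rw [Submodule.mem_bot]
    exact ⟨fun h => h ▸ ⟨zero_mem V, fun q _ P _ φ _ => by simp⟩, fun h => hker ψ h.1
      fun i P hP φ hφ => h.2 _ (Finset.mem_image_of_mem qv (Finset.mem_univ i)) P hP φ hφ⟩
  rw [finrank_bot, Finset.card_image_of_injective _ hinjq, Finset.card_univ,
    Fintype.card_fin] at hdim
  obtain ⟨D⟩ := nonempty_deformationRingData p hpO habs (h𝒟 (Finset.univ.image qv)) (hbar _)
    (S ∪ Finset.univ.image qv) fun _A _ _ _ _ρ h => h𝒟ur _ h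
  obtain ⟨b, hb⟩ := exists_basis_residueMat_eq D bbar
  exact ⟨D, b, hb, exists_frameRing_presentation D b el lift0 fun B _ _ _ _ _ _ _ _ hresB y hy hnorm
    hmB F hF => exists_framedGenerators p hpO (h𝒟 _) D (h𝒟det _ D.isOfType) bbar
      (Deformation.span_residualMatrix_eq_top habs bbar) b hb (fun i => (T i).A.decompositionSubgroup ℚ) el
      (fun Z hZ i X hX d hd =>
        tangentSet_eq_adCoboundary_of_tamePair (hℓ i).2.2 (Ne.symm (hℓ i).2.1) hpO (T i) hfin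
          (htame i) hZ X (hel1 i ▸ hX 1) (hel0 i ▸ hX 0) hd)
      (by beta_reduce at hdim ⊢; omega) lift0 hlift0 B hresB y hy hnorm hmB F hF⟩

end Fermat.Agent.Lifting.Rings
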