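import Fermat.Agent.Lifting.Rings.Sharp
import Fermat.Agent.RT.LocalAtP.Flat
import Fermat.Agent.RT.LocalAtP.TangentBound

/-!
# The strict ordinary rings with an element killed by the flat points

The case used at a peu ramified multiplicative `p`: `𝒟` strict ordinary at `p`, `𝒟'` moreover flat.
-/

set_option autoImplicit false

noncomputable section

namespace Fermat.Agent.Lifting.Rings

open IsLocalRing Fermat.Agent.RT GaloisRep
open Deformation (Mat matOf mapRep Γ)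

variable {O : Type} [CommRing O] [IsDomain O] [IsDiscreteValuationRing O]
  [IsAdicComplete (maximalIdeal O) O] [Finite (ResidueField O)]

/-- At every depth: Taylor–Wiles primes, the universal ring of the strict ordinary condition `𝒟`
presented over the local coordinates, and `e = X_j + F` killed by all its flat points. -/
theorem exists_taylorWilesRings_flatStrict (p : ℕ) [Fact p.Prime] (hp2 : p ≠ 2)
    (hpO : (p : O) ∈ maximalIdeal O)
    (ρbar : ResidualGaloisRep (ResidueField O)) (habs : ρbar.IsAbsolutelyIrreducible)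
    (hdet : (GaloisRepAdic.ofResidualGaloisRep ρbar).DetIsCyclotomic p)
    (hTW : ∀ (K : Type) [Field K] [Algebra (ResidueField O) K] (G : Subgroup Γ), G.index = 2 →
      ∀ V : Submodule K (ρbar.baseChange K).V,
        (∀ σ ∈ G, ∀ x ∈ V, (ρbar.baseChange K).ρ σ x ∈ V) → V = ⊥ ∨ V = ⊤)
    (bbar : Module.Basis (Fin 2) (ResidueField O) ρbar.V)
    (𝒟 : Finset ℕ → ∀ ⦃A : Type⦄ [CommRing A] [IsLocalRing A] [Algebra O A],
      GaloisRepAdic A → Prop)
    (h𝒟 : ∀ Q, IsDeformationCondition O (𝒟 Q))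
    (h𝒟p : ∀ Q, ∀ ⦃A : Type⦄ [CommRing A] [IsLocalRing A] [Algebra O A] ⦃ρ : GaloisRepAdic A⦄,
      𝒟 Q ρ → ρ.DetIsCyclotomic p ∧ ρ.IsStrictOrdinaryAt p)
    (S : Finset ℕ)
    (h𝒟ur : ∀ Q, ∀ ⦃A : Type⦄ [CommRing A] [IsLocalRing A] [Algebra O A] ⦃ρ : GaloisRepAdic A⦄,
      𝒟 Q ρ → ∀ l : ℕ, l.Prime → l ∉ S ∪ Q → ρ.IsUnramifiedAt l)
    (hbar : ∀ Q, 𝒟 Q (GaloisRepAdic.ofResidualGaloisRep ρbar))
    (hflat : (GaloisRepAdic.ofResidualGaloisRep ρbar).IsFlatAt p)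
    (hGW : AdjointGW p (matOf ρbar.ρ bbar) S (padicPlace p))
    {s : ℕ} (ℓ : Fin s → ℕ) (hinj : Function.Injective ℓ)
    (hℓ : ∀ i, ℓ i ∈ S ∧ ℓ i ≠ p ∧ (ℓ i).Prime) (hcov : ∀ l ∈ S, l = p ∨ ∃ i, ℓ i = l)
    (T : ∀ i, TamePair p (ℓ i))
    (hres : ∀ i, ∀ τ ∈ (T i).A.inertiaSubgroupIn ℚ, ∃ k : ℕ, ρbar.ρ τ ^ p ^ k = 1)
    (el : Fin s → Fin 2 → Γ) (hel0 : ∀ i, el i 0 = (T i).F) (hel1 : ∀ i, el i 1 = (T i).σ)
    (lift0 : Fin s → Fin 2 → Mat O)
    (hlift0 : ∀ i e, (lift0 i e).map (residue O) = matOf ρbar.ρ bbar (el i e))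
    (S₀ : Finset ℕ) :
    ∃ r : ℕ, ∀ n : ℕ, ∃ qv : Fin r → ℕ, Function.Injective qv ∧
      (∀ i, qv i ∉ S ∧ qv i ∉ S₀ ∧
        IsTWPrime (matOf ρbar.ρ bbar).toHomUnits p (n + 1) (qv i)) ∧
      ∃ (D : DeformationRingData O ρbar (𝒟 (Finset.univ.image qv)))
        (b : Module.Basis (Fin 2) D.R D.ρ.V),
        residueMat D b = mapRep (ResidueField.map (algebraMap O D.R)) (matOf ρbar.ρ bbar) ∧
        ∃ Φ : MvPowerSeries (LocVar s ⊕ Fin (r + (s - 1))) O →ₐ[O]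
            MvPowerSeries (FrameVar s) D.R,
          Function.Surjective Φ ∧
          (∀ i e a c, Φ (MvPowerSeries.X (Sum.inl (i, e, a, c))) =
            frameConj D.R s i (matOf D.ρ.ρ b (el i e)) a c -
              algebraMap O (MvPowerSeries (FrameVar s) D.R) (lift0 i e a c)) ∧
          ∃ (j₀ : Fin (r + (s - 1))) (e : MvPowerSeries (LocVar s ⊕ Fin (r + (s - 1))) O),
            (∀ g : MvPowerSeries (LocVar s ⊕ Fin (r + (s - 1))) O →ₐ[O]
                MvPowerSeries (LocVar s ⊕ Fin (r + (s - 1))) O,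
              (∀ v, v ≠ Sum.inr j₀ → g (MvPowerSeries.X v) = MvPowerSeries.X v) →
              g (e - MvPowerSeries.X (Sum.inr j₀)) = e - MvPowerSeries.X (Sum.inr j₀)) ∧
            ∀ (A : Type) [CommRing A] [IsLocalRing A] [IsNoetherianRing A]
              [IsAdicComplete (maximalIdeal A) A] [Algebra O A] [IsLocalHom (algebraMap O A)],
              Function.Surjective (residue A ∘ algebraMap O A) →
              ∀ (f : D.R →ₐ[O] A) (hf : IsLocalHom (f : D.R →+* A)),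
                𝒟 (Finset.univ.image qv) (D.ρ.baseChangeAlong (f : D.R →+* A) hf) →
                (D.ρ.baseChangeAlong (f : D.R →+* A) hf).IsFlatAt p →
                MvPowerSeries.map (f : D.R →+* A) (Φ e) = 0 := by
  obtain ⟨r, hr⟩ := exists_taylorWilesRings_sharp p hp2 hpO ρbar habs hdet hTW bbar 𝒟
    (fun Q _A _ _ _ ρ => 𝒟 Q ρ ∧ ρ.IsFlatAt p) h𝒟
    (fun Q => isDeformationCondition_and (h𝒟 Q) FlatCond.isDeformationCondition_flat)
    (fun Q _A _ _ _ _ρ h => h.1) (fun Q _A _ _ _ _ρ h => (h𝒟p Q h).1) S h𝒟ur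
    (fun Q => ⟨hbar Q, hflat⟩) (padicPlace p) hGW
    (localBoundAtP_strictOrdinary Fact.out hp2 hpO _ 𝒟 (fun Q ρ h => h𝒟p Q h) _
      liesOverPrime_padicPlace')
    (sharpLocalBoundAtP_flat_strictOrdinary hp2 hpO _ _
      fun Q ρ h => ⟨(h𝒟p Q h.1).1, h.2, (h𝒟p Q h.1).2⟩)
    ℓ hinj hℓ hcov T hres el hel0 hel1 lift0 hlift0 S₀
  refine ⟨r, fun n => ?_⟩
  obtain ⟨qv, h1, h2, D, b, hb, Φ, hΦ, hΦX, j₀, e, he, hkill⟩ := hr n
  refine ⟨qv, h1, h2, D, b, hb, Φ, hΦ, hΦX, j₀, e, he, ?_⟩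
  intro A _ _ _ _ _ _ hA f hf hD hfl
  exact hkill A hA f hf ⟨hD, hfl⟩

end Fermat.Agent.Lifting.Rings
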