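import Fermat.Agent.Lifting.Rings.Generic
import Fermat.Agent.RT.LocalAtP.Conditions
import Fermat.Agent.RT.LocalAtP.Flat
import Fermat.Agent.RT.LocalAtP.TangentBound
import Fermat.Agent.FlatLocal.LocalBound
import Fermat.Agent.TwoAdic.Selmer.Decomposition

/-!
# The conditions at the nodes of the raising argument

`nodeCond O p fl st Sig Q`: cyclotomic determinant, flat at `p` if `fl`, strictly ordinary at `p`
if `st`, unramified outside `p`, the sites `Sig` and the auxiliary primes `Q`. With both `fl` and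
`st` this is the condition killing the obstruction at a peu ramifiée `p`.
-/

set_option autoImplicit false

noncomputable section

namespace Fermat.Agent.Lifting.Rings

open IsLocalRing Fermat.Agent.RT GaloisRep
open Deformation (Mat matOf Γ)

local notation "ℚ̄" => AlgebraicClosure ℚ

/-- The condition at a node. -/
def nodeCond (O : Type) [CommRing O] (p : ℕ) (fl st : Prop) (Sig Q : Finset ℕ) :
    ∀ ⦃A : Type⦄ [CommRing A] [IsLocalRing A] [Algebra O A], GaloisRepAdic A → Prop :=
  fun _A _ _ _ ρ => ρ.DetIsCyclotomic p ∧ (fl → ρ.IsFlatAt p) ∧ (st → ρ.IsStrictOrdinaryAt p) ∧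
    ∀ q : ℕ, q.Prime → q ≠ p → q ∉ Sig → q ∉ Q → ρ.IsUnramifiedAt q

variable {O : Type} [CommRing O] [IsLocalRing O] {p : ℕ} {fl st fl' st' : Prop}
  {Sig Q Q' : Finset ℕ} {A : Type} [CommRing A] [IsLocalRing A] [Algebra O A]

theorem nodeCond.detIsCyclotomic {ρ : GaloisRepAdic A} (h : nodeCond O p fl st Sig Q ρ) :
    ρ.DetIsCyclotomic p := h.1

theorem nodeCond.mono (hfl : fl' → fl) (hst : st' → st) (hQ : Q ⊆ Q') {ρ : GaloisRepAdic A}
    (h : nodeCond O p fl st Sig Q ρ) : nodeCond O p fl' st' Sig Q' ρ :=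
  ⟨h.1, fun hf => h.2.1 (hfl hf), fun hs => h.2.2.1 (hst hs),
    fun q hq hqp hqS hqQ => h.2.2.2 q hq hqp hqS fun hm => hqQ (hQ hm)⟩

theorem nodeCond.isUnramifiedAt {ρ : GaloisRepAdic A} (h : nodeCond O p fl st Sig Q ρ) {q : ℕ}
    (hq : q.Prime) (hn : q ∉ insert p Sig ∪ Q) : ρ.IsUnramifiedAt q := by
  simp only [Finset.mem_union, Finset.mem_insert, not_or] at hn
  exact h.2.2.2 q hq hn.1.1 hn.1.2 hn.2

theorem isDeformationCondition_det_unramified [Fact p.Prime] (hpO : (p : O) ∈ maximalIdeal O)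
    (Sig Q : Finset ℕ) :
    IsDeformationCondition O fun _A _ _ _ ρ => ρ.DetIsCyclotomic p ∧
      ∀ q : ℕ, q.Prime → q ≠ p → q ∉ Sig → q ∉ Q → ρ.IsUnramifiedAt q := by
  have hU : IsDescending p fun _A _ _ ρ =>
      ∀ q : ℕ, q.Prime ∧ q ≠ p ∧ q ∉ Sig ∧ q ∉ Q → ρ.IsUnramifiedAt q :=
    isDescending_forall _ _ fun q _ => isDescending_isUnramifiedAt q
  have := ((isDescending_detIsCyclotomic (p := p) (Fact.out : p.Prime).ne_zero).and
    hU).isDeformationCondition (𝒪 := O) hpO
  convert this using 1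
  funext A _ _ _ ρ
  simp only [and_imp]

theorem isDeformationCondition_strict [Fact p.Prime] (hp2 : p ≠ 2)
    (hpO : (p : O) ∈ maximalIdeal O) :
    IsDeformationCondition O fun _A _ _ _ ρ => ρ.DetIsCyclotomic p ∧ ρ.IsStrictOrdinaryAt p :=
  (isDescending_det_strictOrdinary (Fact.out : p.Prime) hp2).isDeformationCondition hpO

/-- The condition at a node is a deformation condition. -/
theorem isDeformationCondition_nodeCond [Fact p.Prime] (hp2 : p ≠ 2)
    (hpO : (p : O) ∈ maximalIdeal O) (fl st : Prop) (Sig Q : Finset ℕ) :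
    IsDeformationCondition O (nodeCond O p fl st Sig Q) := by
  classical
  have h0 := isDeformationCondition_det_unramified (p := p) hpO Sig Q
  have hf : IsDeformationCondition O fun _A _ _ _ ρ => ρ.IsFlatAt p :=
    FlatCond.isDeformationCondition_flat
  have hs := isDeformationCondition_strict (p := p) hp2 hpO
  by_cases hfl : fl <;> by_cases hst : st
  · convert isDeformationCondition_and (𝒪 := O) (isDeformationCondition_and (𝒪 := O) h0 hs) hf
      using 1
    funext A _ _ _ ρ
    simp [nodeCond, hfl, hst]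
    tauto
  · convert isDeformationCondition_and (𝒪 := O) h0 hf using 1
    funext A _ _ _ ρ
    simp [nodeCond, hfl, hst]
    tauto
  · convert isDeformationCondition_and (𝒪 := O) h0 hs using 1
    funext A _ _ _ ρ
    simp [nodeCond, hfl, hst]
    tauto
  · convert h0 using 1
    funext A _ _ _ ρ
    simp [nodeCond, hfl, hst]

section Bound

variable [Finite (ResidueField O)] [Fact p.Prime]

/-- `dim L_p ≤ 1 + h⁰` at a node, flat or strictly ordinary at `p`. -/
theorem localBoundAtP_nodeCond (hp2 : p ≠ 2) (hpO : (p : O) ∈ maximalIdeal O)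
    (rbar : Γ →* Mat (ResidueField O))
    (hsplit : ∀ g : Γ, ∃ c : ResidueField O, (rbar g - c • (1 : Mat (ResidueField O))).det = 0)
    (h : fl ∨ st) (Sig : Finset ℕ) :
    LocalBoundAtP rbar (nodeCond O p fl st Sig) (padicPlace p) := by
  rcases h with h | h
  · exact FlatLocal.localBoundAtP_flat hp2 hpO _ hsplit _ fun Q ρ hρ => ⟨hρ.1, hρ.2.1 h⟩
  · exact localBoundAtP_strictOrdinary Fact.out hp2 hpO _ _ (fun Q ρ hρ => ⟨hρ.1, hρ.2.2.1 h⟩) _
      (TwoAdic.Selmer.liesOverPrime_padicPlace (q := ⟨p, Fact.out⟩))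

end Bound

end Fermat.Agent.Lifting.Rings
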