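import Fermat.Agent.Lifting.Algebra.Chart
import Fermat.Agent.RT.Global.Presentation
import Fermat.Agent.RT.Generators

/-!
# Presentations in the coordinates of the sites

A presentation over the framed local coordinates in the basis of the representation is a
presentation over the coordinates of the sites: the universal family goes to the framed pairs
conjugated to the residual normal forms.
-/

set_option autoImplicit false

noncomputable section

namespace Fermat.Agent.Lifting.Rings

open IsLocalRing Matrix Fermat.Agent.RT Fermat.Agent.RT.LocalRing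
open Fermat.Agent.Lifting.Algebra (Site coordsOf familyOf familyOf_coordsOf map_coordsOf centreCfg)
open Deformation (Γ)

variable {R : Type} [CommRing R] [IsLocalRing R] {s : ℕ}

/-- The frame at a place, as a unit. -/
def frameUnit (R : Type) [CommRing R] [IsLocalRing R] (s : ℕ) (j : Fin s) :
    (Mat (MvPowerSeries (FrameVar s) R))ˣ :=
  (isUnit_one_add_frameY R s j).unit

theorem frameUnit_val (j : Fin s) :
    (frameUnit R s j : Mat (MvPowerSeries (FrameVar s) R)) = 1 + frameY R s j :=
  (isUnit_one_add_frameY R s j).unit_spec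

theorem frameConj_eq_cj (j : Fin s) (M : Mat R) :
    frameConj R s j M =
      cj (frameUnit R s j) (M.map (algebraMap R (MvPowerSeries (FrameVar s) R))) := by
  have hinv : (((frameUnit R s j)⁻¹ : (Mat (MvPowerSeries (FrameVar s) R))ˣ) :
      Mat (MvPowerSeries (FrameVar s) R)) = (1 + frameY R s j)⁻¹ := by
    rw [← frameUnit_val, Matrix.coe_units_inv]
  rw [cj, frameUnit_val, hinv, frameConj]

variable {O : Type} [CommRing O] [IsLocalRing O] [IsNoetherianRing O] {g : ℕ}

/-- A unit matrix over `O` in an algebra. -/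
def unitIn (G : (Mat O)ˣ) (B : Type) [CommRing B] [Algebra O B] : (Mat B)ˣ :=
  Units.map (algebraMap O B).mapMatrix.toMonoidHom G

theorem map_cj_unitIn {B : Type} [CommRing B] [Algebra O B] (G : (Mat O)ˣ) (M : Mat O) :
    (cj G M).map (algebraMap O B) = cj (unitIn G B) (M.map (algebraMap O B)) :=
  map_cj (algebraMap O B) G M

/-- The entries of a matrix lie in the ideal of the entries of a conjugate. -/
theorem mem_of_cj_mem {B : Type} [CommRing B] {I : Ideal B} (u : (Mat B)ˣ) {M : Mat B}
    (h : ∀ a c, cj u M a c ∈ I) (a c : Fin 2) : M a c ∈ I := by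
  have hM : M = cj u⁻¹ (cj u M) := by rw [← cj_mul, inv_mul_cancel, cj_one]
  rw [hM, cj, Matrix.mul_apply]
  simp only [Matrix.mul_apply]
  exact Ideal.sum_mem _ fun k _ => Ideal.mul_mem_right _ _
    (Ideal.sum_mem _ fun l _ => Ideal.mul_mem_left _ _ (h l k))

/-- The images of the variables generate the maximal ideal of a quotient. -/
theorem maximalIdeal_le_range_X {σ : Type} [Finite σ] {B : Type} [CommRing B] [IsLocalRing B]
    [Algebra O B] (Φ : MvPowerSeries σ O →ₐ[O] B) (hΦ : Function.Surjective Φ) :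
    maximalIdeal B ≤ Ideal.span (Set.range fun i => Φ (MvPowerSeries.X i)) ⊔
      (maximalIdeal O).map (algebraMap O B) := by
  intro z hz
  obtain ⟨w, rfl⟩ := hΦ z
  have hw : w ∈ maximalIdeal (MvPowerSeries σ O) := by
    by_contra hne
    exact hz ((notMem_maximalIdeal.1 hne).map Φ)
  have h := Ideal.mem_map_of_mem (Φ : MvPowerSeries σ O →+* B) (maximalIdeal_mvPowerSeries hw)
  rw [Ideal.map_sup, Ideal.map_map, Deformation.varsIdeal, Ideal.map_span, ← Set.range_comp] at h
  rw [show (Φ : MvPowerSeries σ O →+* B).comp (algebraMap O _) = algebraMap O B from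
    RingHom.ext fun r => Φ.commutes r] at h
  exact h

variable [Algebra O R]

/-- The frame followed by the change to the normal form at a site. -/
def siteFrame (G : Fin s → (Mat O)ˣ) (j : Fin s) :
    (Mat (MvPowerSeries (FrameVar s) R))ˣ :=
  unitIn (G j) _ * frameUnit R s j

/-- The pairs in the normal forms. -/
def sitePair (G : Fin s → (Mat O)ˣ) (rR : Γ →* Mat R) (el : Fin s → Fin 2 → Γ) (j : Fin s) :
    Mat (MvPowerSeries (FrameVar s) R) × Mat (MvPowerSeries (FrameVar s) R) :=
  (cj (siteFrame G j) ((rR (el j 0)).map (algebraMap R _)),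
    cj (siteFrame G j) ((rR (el j 1)).map (algebraMap R _)))

theorem sub_centre_eq (rR : Γ →* Mat R) (el : Fin s → Fin 2 → Γ) (lift0 : Fin s → Fin 2 → Mat O)
    (G : Fin s → (Mat O)ˣ) (j : Fin s) (e : Fin 2) :
    cj (siteFrame G j) ((rR (el j e)).map (algebraMap R _)) -
        (cj (G j) (lift0 j e)).map (algebraMap O (MvPowerSeries (FrameVar s) R)) =
      cj (unitIn (G j) _) (frameConj R s j (rR (el j e)) -
        (lift0 j e).map (algebraMap O (MvPowerSeries (FrameVar s) R))) := by
  rw [map_cj_unitIn, cj_sub, frameConj_eq_cj, siteFrame, cj_mul]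

/-- The coordinates relative to the centres are the conjugated local coordinates. -/
theorem coordsOf_sitePair {g : ℕ} (rR : Γ →* Mat R) (el : Fin s → Fin 2 → Γ)
    (lift0 : Fin s → Fin 2 → Mat O) (S : Fin s → Site O) (G : Fin s → (Mat O)ˣ)
    (hG0 : ∀ j, cj (G j) (lift0 j 0) = (S j).centre.1)
    (hG1 : ∀ j, cj (G j) (lift0 j 1) = (S j).centre.2)
    (v : Fin g → MvPowerSeries (FrameVar s) R) (j : Fin s) (b : Bool) (a c : Fin 2) :
    coordsOf S (sitePair G rR el, v) (Sum.inl (j, b, a, c)) =
      cj (unitIn (G j) _) (frameConj R s j (rR (el j (cond b 1 0))) -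
        (lift0 j (cond b 1 0)).map (algebraMap O (MvPowerSeries (FrameVar s) R))) a c := by
  rw [← sub_centre_eq]
  cases b
  · show ((sitePair G rR el j).1 - (centreCfg S (MvPowerSeries (FrameVar s) R) j).1) a c = _
    simp only [sitePair, centreCfg, ← hG0 j, cond_false]
  · show ((sitePair G rR el j).2 - (centreCfg S (MvPowerSeries (FrameVar s) R) j).2) a c = _
    simp only [sitePair, centreCfg, ← hG1 j, cond_true]

/-- **The presentation in site coordinates.** -/
theorem exists_sitePresentation [IsAdicComplete (maximalIdeal O) O] [IsNoetherianRing R] [IsAdicComplete (maximalIdeal R) R]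
    [IsLocalHom (algebraMap O R)]
    (hres : Function.Surjective (residue R ∘ algebraMap O R))
    (rR : Γ →* Mat R) (el : Fin s → Fin 2 → Γ) (lift0 : Fin s → Fin 2 → Mat O)
    (S : Fin s → Site O) (G : Fin s → (Mat O)ˣ)
    (hG0 : ∀ j, cj (G j) (lift0 j 0) = (S j).centre.1)
    (hG1 : ∀ j, cj (G j) (lift0 j 1) = (S j).centre.2)
    {Φ : MvPowerSeries (LocVar s ⊕ Fin g) O →ₐ[O] MvPowerSeries (FrameVar s) R}
    (hΦ : Function.Surjective Φ)
    (hX : ∀ i e a c, Φ (MvPowerSeries.X (Sum.inl (i, e, a, c))) =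
      frameConj R s i (rR (el i e)) a c -
        algebraMap O (MvPowerSeries (FrameVar s) R) (lift0 i e a c)) :
    ∃ Ψ : PSR (Fin s) (Fin g) O →ₐ[O] MvPowerSeries (FrameVar s) R,
      Function.Surjective Ψ ∧
      (∀ i, Ψ (MvPowerSeries.X i) ∈ maximalIdeal (MvPowerSeries (FrameVar s) R)) ∧
      (∀ t, Ψ (MvPowerSeries.X (Sum.inr t)) = Φ (MvPowerSeries.X (Sum.inr t))) ∧
      ∀ j, (familyOf S (Ψ ∘ MvPowerSeries.X)).1 j = sitePair G rR el j := by
  have hresB := residue_surjective_mvPowerSeries (σ := FrameVar s) hres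
  have : IsAdicComplete (maximalIdeal (MvPowerSeries (FrameVar s) R))
      (MvPowerSeries (FrameVar s) R) := mvPowerSeries_isAdicComplete
  have : IsLocalHom (algebraMap O (MvPowerSeries (FrameVar s) R)) := by
    rw [IsScalarTower.algebraMap_eq O R (MvPowerSeries (FrameVar s) R)]
    exact RingHom.isLocalHom_comp _ _
  have hΦloc := IsLocalHom.of_surjective
    (Φ : MvPowerSeries (LocVar s ⊕ Fin g) O →+* MvPowerSeries (FrameVar s) R) hΦ
  have hΦm : ∀ i, Φ (MvPowerSeries.X i) ∈ maximalIdeal (MvPowerSeries (FrameVar s) R) := fun i =>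
    map_nonunit (Φ : MvPowerSeries (LocVar s ⊕ Fin g) O →+* MvPowerSeries (FrameVar s) R) _ (by
      rw [mem_maximalIdeal_mvPowerSeries, MvPowerSeries.constantCoeff_X]
      exact zero_mem _)
  set v := fun t => Φ (MvPowerSeries.X (Sum.inr t)) with hv
  have hM : ∀ i e a c, (frameConj R s i (rR (el i e)) -
      (lift0 i e).map (algebraMap O (MvPowerSeries (FrameVar s) R))) a c =
      Φ (MvPowerSeries.X (Sum.inl (i, e, a, c))) := fun i e a c => (hX i e a c).symm
  have hco := coordsOf_sitePair rR el lift0 S G hG0 hG1 v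
  have hvm : ∀ i, coordsOf S (sitePair G rR el, v) i ∈
      maximalIdeal (MvPowerSeries (FrameVar s) R) := by
    rintro (⟨j, b, a, c⟩ | t)
    · rw [hco, cj, Matrix.mul_apply]
      simp only [Matrix.mul_apply, hM]
      exact Ideal.sum_mem _ fun k _ => Ideal.mul_mem_right _ _
        (Ideal.sum_mem _ fun l _ => Ideal.mul_mem_left _ _ (hΦm _))
    · exact hΦm _
  have hgen : maximalIdeal (MvPowerSeries (FrameVar s) R) ≤
      Ideal.span (Set.range (coordsOf S (sitePair G rR el, v))) ⊔
        (maximalIdeal O).map (algebraMap O _) ⊔ maximalIdeal _ ^ 2 := by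
    refine le_trans (maximalIdeal_le_range_X Φ hΦ) (le_trans ?_ le_sup_left)
    refine sup_le_sup_right (Ideal.span_le.2 ?_) _
    rintro _ ⟨⟨j, e, a, c⟩ | t, rfl⟩
    · show Φ (MvPowerSeries.X (Sum.inl (j, e, a, c))) ∈ _
      rw [← hM]
      refine mem_of_cj_mem (unitIn (G j) _) (fun l k => Ideal.subset_span ?_) a c
      fin_cases e
      · exact ⟨Sum.inl (j, false, l, k), hco j false l k⟩
      · exact ⟨Sum.inl (j, true, l, k), hco j true l k⟩
    · exact Ideal.subset_span ⟨Sum.inr t, rfl⟩
  obtain ⟨Ψ, hΨ, hΨX⟩ := exists_mvPowerSeries_surjective hresB _ hvm hgen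
  refine ⟨Ψ, hΨ, fun i => by rw [hΨX]; exact hvm i, fun t => hΨX _, fun j => ?_⟩
  rw [show Ψ ∘ MvPowerSeries.X = coordsOf S (sitePair G rR el, v) from funext hΨX,
    familyOf_coordsOf]

omit [IsLocalRing O] [IsNoetherianRing O] [Algebra O R] in
/-- The universal family at a point of the framed ring. -/
theorem familyOf_comp {B V : Type} [CommRing B] [Algebra O B] [CommRing V] [Algebra O V]
    {J τ : Type} (S : J → Site O) (f : B →ₐ[O] V) (v : Idx J τ → B) :
    familyOf S (f ∘ v) = mapCfg f (familyOf S v) := by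
  have h : v = coordsOf S (familyOf S v) := by
    funext i
    rcases i with ⟨j, b, a, c⟩ | t
    · cases b <;> simp [coordsOf, familyOf]
    · rfl
  have h2 : f ∘ v = coordsOf S (mapCfg f (familyOf S v)) := by
    conv_lhs => rw [h]
    exact funext fun i => map_coordsOf f S _ i
  rw [h2, familyOf_coordsOf]

end Fermat.Agent.Lifting.Rings
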