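import Fermat.Agent.Lifting.Rings.Cond
import Fermat.Agent.Lifting.Rings.SitePresentation
import Fermat.Agent.Lifting.Algebra.SiteGens
import Fermat.Agent.Lifting.Squarefree.RaiseData
import Fermat.Agent.Lifting.Squarefree.RaiseSigns
import Fermat.Agent.RT.Global.AdjointGW

/-!
# The rings of the raising argument

`RaiseFrames`: an enumeration of the sites, tame pairs, a residual basis and the sites of the
curve. `exists_raiseRings`: at every depth Taylor–Wiles primes outside the excluded set and the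
universal ring of the condition of the levels, presented over the coordinates of the sites.
-/

set_option autoImplicit false

noncomputable section

open IsLocalRing Matrix

namespace Fermat.Agent.Lifting.Rings

open RT RT.LocalRing Algebra GaloisRep
open Deformation (matOf mapRep Γ)

local notation "ℚ̄" => AlgebraicClosure ℚ

variable {W : WeierstrassCurve ℤ} {hΔ : W.Δ ≠ 0} {p L : ℕ} [Fact p.Prime] {O : Type}
  [CommRing O] [IsDomain O] [IsDiscreteValuationRing O] [IsAdicComplete (maximalIdeal O) O]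
  [Finite (ResidueField O)] [CharZero O]

/-- The sites of the curve with their frames. -/
structure RaiseFrames (X : RaiseData W hΔ p L O) (s : ℕ) where
  /-- the primes of the sites -/
  q : Fin s → ℕ
  inj : Function.Injective q
  mem_iff : ∀ l : ℕ, l ∈ raiseSites W p ↔ ∃ j, q j = l
  prime : ∀ j, (q j).Prime
  ne : ∀ j, q j ≠ p
  T : ∀ j, TamePair p (q j)
  bbar : Module.Basis (Fin 2) (ResidueField O) (raiseRep hΔ X.ι).V
  site : ∀ j, CurveSite hΔ X.φ X.φ_local X.ι (prime j) (ne j) (T j) bbar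

/-- There are frames, at a nonempty set of sites for a curve multiplicative at `2`. -/
theorem exists_raiseFrames (X : RaiseData W hΔ p L O) (hW : W.IsSemistableModel)
    (hirr : W.ModRepIsIrreducible p) (hbad : ∃ l : ℕ, l.Prime ∧ l ≠ p ∧ (l : ℤ) ∣ W.Δ) :
    ∃ s, 0 < s ∧ Nonempty (RaiseFrames X s) := by
  classical
  obtain ⟨s, e⟩ : ∃ s, Nonempty (Fin s ≃ {l // l ∈ raiseSites W p}) :=
    ⟨_, ⟨(Fintype.equivFin _).symm⟩⟩
  obtain ⟨e⟩ := e
  obtain ⟨l, hl⟩ := hbad
  have hs : 0 < s := Fin.pos (e.symm ⟨l, (mem_raiseSites_iff hΔ).2 hl⟩)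
  let q : Fin s → ℕ := fun j => (e j).1
  have hq : ∀ j, (q j).Prime ∧ q j ≠ p ∧ (q j : ℤ) ∣ W.Δ := fun j =>
    (mem_raiseSites_iff hΔ).1 (e j).2
  have hT : ∀ j, Nonempty (TamePair p (q j)) := fun j => by
    obtain ⟨A, σ, hA, -⟩ := Galois.exists_valuationSubring_isFrobeniusAt (hq j).1
    obtain ⟨T, -⟩ := exists_tamePair Fact.out (hq j).1 (hq j).2.1.symm A hA
    exact ⟨T⟩
  let bbar : Module.Basis (Fin 2) (ResidueField O) (raiseRep hΔ X.ι).V :=
    Module.finBasisOfFinrankEq _ _ (raiseRep hΔ X.ι).finrank_eq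
  exact ⟨s, hs, ⟨{
    q := q
    inj := fun i j h => e.injective (Subtype.ext h)
    mem_iff := fun l => ⟨fun h => ⟨e.symm ⟨l, h⟩, by simp [q]⟩, by
      rintro ⟨j, rfl⟩
      exact (e j).2⟩
    prime := fun j => (hq j).1
    ne := fun j => (hq j).2.1
    T := fun j => (hT j).some
    bbar := bbar
    site := fun j => (nonempty_curveSite hΔ X.φ X.φ_local X.ι X.hp2 hW hirr (hq j).1 (hq j).2.1
      (hq j).2.2 (hT j).some bbar).some }⟩⟩

namespace RaiseFrames

variable {X : RaiseData W hΔ p L O} {s : ℕ} (F : RaiseFrames X s)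

/-- The sites. -/
abbrev sites (j : Fin s) : Site O := (F.site j).site

/-- Frobenius and inertia at the sites. -/
def el (j : Fin s) : Fin 2 → Γ := ![(F.T j).F, (F.T j).σ]

/-- The lifts of the residual matrices. -/
def lift0 (j : Fin s) : Fin 2 → Mat O :=
  ![cj (F.site j).frame (F.sites j).centre.1, cj (F.site j).frame (F.sites j).centre.2]

theorem lift0_residual (j : Fin s) (e : Fin 2) :
    (F.lift0 j e).map (residue O) = matOf (raiseRep hΔ X.ι).ρ F.bbar (F.el j e) := by
  fin_cases e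
  · exact (F.site j).frame_F
  · exact (F.site j).frame_σ

end RaiseFrames

/-- The condition of the levels: flat at a good `p`, strictly ordinary at a multiplicative one. -/
abbrev raiseCond (W : WeierstrassCurve ℤ) (p L : ℕ) (O : Type) [CommRing O] (Q : Finset ℕ) :
    ∀ ⦃A : Type⦄ [CommRing A] [IsLocalRing A] [Algebra O A], GaloisRepAdic A → Prop :=
  nodeCond O p (¬ p ∣ L) (p ∣ L) (raiseSites W p) Q

theorem isUnramifiedAt_of_not_mem_raiseSites (X : RaiseData W hΔ p L O) {q : ℕ} (hq : q.Prime)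
    (hqp : q ≠ p) (hn : q ∉ raiseSites W p) : (raiseRep hΔ X.ι).IsUnramifiedAt q :=
  Minimal.torsRep_baseChange_isUnramifiedAt hΔ X.ι fun A hA σ hσ x =>
    haveI := EC.Reducible.isElliptic_rat W hΔ
    Subtype.ext (EC.smul_eq_of_mem_inertia W A hq hA
      (fun h => hn ((mem_raiseSites_iff hΔ).2 ⟨hq, hqp, h⟩)) hσ
      (fun h => hqp ((Nat.prime_dvd_prime_iff_eq hq (Fact.out : p.Prime)).1 h))
      (EC.Reducible.nsmul_coe_eq_zero x))

/-- The residual representation satisfies the condition. -/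
theorem raiseCond_residual (X : RaiseData W hΔ p L O) (Q : Finset ℕ) :
    raiseCond W p L O Q (GaloisRepAdic.ofResidualGaloisRep (raiseRep hΔ X.ι)) :=
  ⟨X.det, X.flat, X.ord, fun _ hq hqp hn _ =>
    isUnramifiedAt_of_not_mem_raiseSites X hq hqp hn⟩

theorem exists_det_sub_smul (X : RaiseData W hΔ p L O)
    (b : Module.Basis (Fin 2) (ResidueField O) (raiseRep hΔ X.ι).V) (g : Γ) :
    ∃ c : ResidueField O,
      (matOf (raiseRep hΔ X.ι).ρ b g - c • (1 : Mat (ResidueField O))).det = 0 := by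
  obtain ⟨α, β, h⟩ := X.split g
  refine ⟨α, ?_⟩
  have hc := LinearMap.charpoly_toMatrix ((raiseRep hΔ X.ι).ρ g) b
  rw [h] at hc
  have he := congrArg (Polynomial.eval α) hc
  rw [Matrix.eval_charpoly] at he
  simp only [Polynomial.eval_mul, Polynomial.eval_sub, Polynomial.eval_X, Polynomial.eval_C,
    sub_self, zero_mul] at he
  rw [Deformation.matOf_apply, Matrix.smul_one_eq_diagonal,
    show (Matrix.diagonal fun _ => α) = Matrix.scalar (Fin 2) α from rfl,
    ← neg_sub, Matrix.det_neg, he, mul_zero]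

theorem prime_of_mem_insert_raiseSites (hΔ : W.Δ ≠ 0) :
    ∀ l ∈ insert p (raiseSites W p), l.Prime := fun _ hl => by
  rcases Finset.mem_insert.1 hl with rfl | h
  exacts [Fact.out, ((mem_raiseSites_iff hΔ).1 h).1]

/-- The Greenberg–Wiles inequality at the sites. -/
theorem adjointGW_raiseSites (X : RaiseData W hΔ p L O)
    (bbar : Module.Basis (Fin 2) (ResidueField O) (raiseRep hΔ X.ι).V) :
    RT.AdjointGW p (matOf (raiseRep hΔ X.ι).ρ bbar) (insert p (raiseSites W p))
      (padicPlace p) := by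
  have : CharP (ResidueField O) p := (CharP.charP_iff_prime_eq_zero Fact.out).mpr (by
    rw [← map_natCast (residue O), residue_eq_zero_iff]; exact X.hpO)
  exact RT.adjointGW p X.hp2 _ X.absIrr X.det bbar _ (prime_of_mem_insert_raiseSites hΔ)
    (fun q hq hqp hn => isUnramifiedAt_of_not_mem_raiseSites X hq hqp
      fun h => hn (Finset.mem_insert_of_mem h))
    (TwoAdic.Selmer.liesOverPrime_padicPlace (q := ⟨p, Fact.out⟩))

/-- **The rings of the raising argument.** -/
theorem exists_raiseRings (X : RaiseData W hΔ p L O) {s : ℕ} (F : RaiseFrames X s)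
    (S₀ : Finset ℕ) :
    ∃ r : ℕ, ∀ n : ℕ, ∃ qv : Fin r → ℕ, Function.Injective qv ∧
      (∀ i, qv i ∉ raiseExcluded W p X.r₀ ∧ qv i ∉ S₀ ∧
        IsTWPrime (matOf (raiseRep hΔ X.ι).ρ F.bbar).toHomUnits p (n + 1) (qv i)) ∧
      ∃ (D : DeformationRingData O (raiseRep hΔ X.ι)
          (raiseCond W p L O (Finset.univ.image qv)))
        (b : Module.Basis (Fin 2) D.R D.ρ.V),
        residueMat D b = mapRep (ResidueField.map (algebraMap O D.R))
          (matOf (raiseRep hΔ X.ι).ρ F.bbar) ∧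
        ∃ Ψ : PSR (Fin s) (Fin (r + (s - 1))) O →ₐ[O] MvPowerSeries (FrameVar s) D.R,
          Function.Surjective Ψ ∧
          (∀ i, Ψ (MvPowerSeries.X i) ∈ maximalIdeal (MvPowerSeries (FrameVar s) D.R)) ∧
          ∀ j, ∃ u : (Mat (MvPowerSeries (FrameVar s) D.R))ˣ,
            (univPair F.sites (Fin (r + (s - 1))) j).1.map Ψ =
                cj u ((matOf D.ρ.ρ b (F.T j).F).map MvPowerSeries.C) ∧
            (univPair F.sites (Fin (r + (s - 1))) j).2.map Ψ =
                cj u ((matOf D.ρ.ρ b (F.T j).σ).map MvPowerSeries.C) := by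
  classical
  set ρbar := raiseRep hΔ X.ι
  obtain ⟨r, hr⟩ := exists_taylorWilesRings p X.hp2 X.hpO ρbar X.absIrr X.det
    (fun K _ _ G hG => X.idx2 K G hG) F.bbar (raiseCond W p L O)
    (fun Q => isDeformationCondition_nodeCond X.hp2 X.hpO _ _ _ Q)
    (fun Q _A _ _ _ _ρ h => h.1) (insert p (raiseSites W p))
    (fun Q _A _ _ _ _ρ h _ hl hn => h.isUnramifiedAt hl hn)
    (raiseCond_residual X) (padicPlace p)
    (adjointGW_raiseSites X F.bbar)
    (localBoundAtP_nodeCond X.hp2 X.hpO _ (exists_det_sub_smul X F.bbar) (em' (p ∣ L)) _)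
    F.q F.inj
    (fun j => ⟨Finset.mem_insert_of_mem ((F.mem_iff _).2 ⟨j, rfl⟩), F.ne j, F.prime j⟩)
    (fun l hl => (Finset.mem_insert.1 hl).imp_right fun h => (F.mem_iff l).1 h)
    F.T (fun j τ hτ => ⟨1, X.inertia_pow _ (F.prime j) (F.ne j) _ (F.T j).hA τ hτ⟩)
    F.el (fun j => rfl) (fun j => rfl) F.lift0 F.lift0_residual (raiseExcluded W p X.r₀ ∪ S₀)
  refine ⟨r, fun n => ?_⟩
  obtain ⟨qv, hinj, hqv, D, b, hb, Φ, hΦ, hΦX⟩ := hr n
  refine ⟨qv, hinj, fun i => ⟨fun h => (hqv i).2.1 (Finset.mem_union_left _ h),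
    fun h => (hqv i).2.1 (Finset.mem_union_right _ h), (hqv i).2.2⟩, D, b, hb, ?_⟩
  obtain ⟨Ψ, hΨ, hΨm, -, hfam⟩ := exists_sitePresentation D.residue_surjective (matOf D.ρ.ρ b)
    F.el F.lift0 F.sites (fun j => (F.site j).frame⁻¹)
    (fun j => by
      show cj _ (cj (F.site j).frame _) = _
      rw [← cj_mul, inv_mul_cancel, cj_one])
    (fun j => by
      show cj _ (cj (F.site j).frame _) = _
      rw [← cj_mul, inv_mul_cancel, cj_one])
    hΦ hΦX
  refine ⟨Ψ, hΨ, hΨm, fun j => ⟨siteFrame (fun j => (F.site j).frame⁻¹) j, ?_⟩⟩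
  have h := (univPair_map (τ := Fin (r + (s - 1))) (S := F.sites) Ψ j).trans (hfam j)
  exact ⟨congrArg Prod.fst h, congrArg Prod.snd h⟩

/-- The frames and the diamond variables exhaust the variables of the coefficient ring. -/
theorem nonempty_varsEquiv {s : ℕ} (hs : 0 < s) (r : ℕ) :
    Nonempty (Fin (3 * Nat.card (Fin s) + (r + (s - 1))) ≃ Fin r ⊕ FrameVar s) := by
  classical
  refine ⟨(Fintype.equivFinOfCardEq ?_).symm⟩
  rw [Fintype.card_sum, Fintype.card_fin, ← Nat.card_eq_fintype_card (α := FrameVar s),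
    card_frameVar s hs, Nat.card_eq_fintype_card, Fintype.card_fin]
  omega

end Fermat.Agent.Lifting.Rings
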