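import Fermat.Agent.EichlerShimura.FiniteDVR
import Fermat.Agent.RT.Assembly.HeckeRep
import Fermat.Agent.Lifting.Rings.Cond

/-!
# The representation over a finite reduced algebra from those of its points

A finite torsion-free reduced local `O`-algebra with the residue field of `O`, elements `T ℓ` at
the good primes, and at every point a representation with those traces and the condition of a
node: the points glue to a representation over the algebra with the condition of the node.
-/

set_option autoImplicit false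
set_option linter.style.haveILetI false

noncomputable section

open IsLocalRing Polynomial Fermat.Agent.RT

namespace Fermat.Agent.Lifting.Rings

local notation "ℚ̄" => AlgebraicClosure ℚ
local notation "Γℚ" => (AlgebraicClosure ℚ ≃ₐ[ℚ] AlgebraicClosure ℚ)

variable {O : Type} [CommRing O] [IsDomain O] [IsDiscreteValuationRing O]
  [IsAdicComplete (maximalIdeal O) O] [Finite (ResidueField O)] [CharZero O]
  {p : ℕ} [Fact p.Prime]

/-- The Hecke polynomials at the Frobenius elements outside `S`. -/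
def HasFrobenius {A : Type} [CommRing A] [IsLocalRing A] (ρ : GaloisRepAdic A) (S : Finset ℕ)
    (T : Nat.Primes → A) : Prop :=
  ∀ (ℓ : ℕ) (hℓ : ℓ.Prime), ℓ ∉ S → ∀ P : ValuationSubring ℚ̄, P.LiesOverPrime ℓ →
    ∀ σ : Γℚ, P.IsFrobeniusAt σ ℓ →
      LinearMap.charpoly (ρ.ρ σ) = X ^ 2 - C (T ⟨ℓ, hℓ⟩) * X + C (ℓ : A)

/-- The points glue to a representation with the condition of the node. -/
theorem exists_pointsRep (hp2 : p ≠ 2) (hpO : (p : O) ∈ maximalIdeal O)
    {R : Type} [CommRing R] [IsLocalRing R] [IsReduced R] [Algebra O R] [Module.Finite O R]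
    [Module.IsTorsionFree O R] [IsLocalHom (algebraMap O R)]
    (hres : Function.Surjective (residue R ∘ algebraMap O R))
    (ρbar : ResidualGaloisRep (ResidueField O)) (habs : ρbar.IsAbsolutelyIrreducible)
    (S : Finset ℕ) (T : Nat.Primes → R)
    (hbar : ∀ (ℓ : ℕ) (hℓ : ℓ.Prime), ℓ ∉ S → ∀ P : ValuationSubring ℚ̄, P.LiesOverPrime ℓ →
      ∀ σ : Γℚ, P.IsFrobeniusAt σ ℓ →
      LinearMap.charpoly ((ρbar.baseChangeAlong (ResidueField.map (algebraMap O R))).ρ σ) =
        X ^ 2 - C (residue R (T ⟨ℓ, hℓ⟩)) * X + C (ℓ : ResidueField R))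
    (fl st : Prop) (Sig Q : Finset ℕ)
    (hpt : ∀ (V : Type) [CommRing V] [IsDomain V] [IsDiscreteValuationRing V]
      [IsAdicComplete (maximalIdeal V) V] [Finite (ResidueField V)] [CharZero V] [Algebra O V]
      [Module.Finite O V] [IsLocalHom (algebraMap O V)], Function.Injective (algebraMap O V) →
      ∀ f : R →ₐ[O] V, IsLocalHom (f : R →+* V) →
        ∃ ρ : GaloisRepAdic V, nodeCond O p fl st Sig Q ρ ∧
          HasFrobenius ρ S (fun ℓ => f (T ℓ))) :
    ∃ ρ : GaloisRepAdic R, nodeCond O p fl st Sig Q ρ ∧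
      ρ.residual.IsEquiv (ρbar.baseChangeAlong (ResidueField.map (algebraMap O R))) ∧
      HasFrobenius ρ S T ∧
      ∀ (V : Type) [CommRing V] [IsDomain V] [IsDiscreteValuationRing V]
        [IsAdicComplete (maximalIdeal V) V] [Finite (ResidueField V)] [CharZero V] [Algebra O V]
        [IsLocalHom (algebraMap O V)],
        ∀ (f : R →ₐ[O] V) (hf : IsLocalHom (f : R →+* V)) (ρV : GaloisRepAdic V),
          ρV.residual.IsAbsolutelyIrreducible → HasFrobenius ρV S (fun ℓ => f (T ℓ)) →
            (ρ.baseChangeAlong (f : R →+* V) hf).IsEquiv ρV := by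
  classical
  have hp : p.Prime := Fact.out
  haveI : IsNoetherianRing R := IsNoetherianRing.of_finite O _
  haveI : IsAdicComplete (maximalIdeal R) R :=
    IsLocalRing.isAdicComplete_of_module_finite (𝒪 := O)
  let ι : ResidueField O →+* ResidueField R := ResidueField.map (algebraMap O R)
  let ρbar' := ρbar.baseChangeAlong ι
  have habs' : ρbar'.IsAbsolutelyIrreducible := isAbsolutelyIrreducible_baseChangeAlong ι _ habs
  have hpR : (p : R) ∈ maximalIdeal R := by
    simpa using map_nonunit (algebraMap O R) _ hpO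
  have h2 : IsUnit (2 : R) := by
    by_contra h
    obtain ⟨k, hk⟩ := hp.odd_of_ne_two hp2
    have h1 := sub_mem hpR (Ideal.mul_mem_right (k : R) _
      (show (2 : R) ∈ maximalIdeal R from h))
    have e : (p : R) = 2 * (k : R) + 1 := by
      exact_mod_cast congrArg (Nat.cast (R := R)) hk
    rw [show (p : R) - 2 * (k : R) = 1 by rw [e]; ring] at h1
    exact (maximalIdeal.isMaximal R).ne_top ((Ideal.eq_top_iff_one _).mpr h1)
  haveI : Finite (ResidueField R) := Finite.of_surjective ι fun y => by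
    obtain ⟨o, ho⟩ := hres y
    exact ⟨residue O o, (ResidueField.map_residue _ _).trans ho⟩
  -- the minimal primes and their points
  haveI : Finite (minimalPrimes R) :=
    (minimalPrimes.finite_of_isNoetherianRing R).to_subtype
  have hP0 : ∀ P : minimalPrimes R, ∀ a : O, algebraMap O R a ∈ P.1 → a = 0 := by
    intro P a ha
    by_contra ha0
    refine Set.disjoint_left.mp (Ideal.disjoint_nonZeroDivisors_of_mem_minimalPrimes P.2) ha ?_
    refine mem_nonZeroDivisors_iff_right.mpr fun x hx => ?_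
    rw [mul_comm, ← Algebra.smul_def] at hx
    exact (smul_eq_zero.mp hx).resolve_left ha0
  choose W iW1 iW2 iW3 iW4 iW5 iW6 iW7 iW8 iW9 hWinj f hf using fun P : minimalPrimes R =>
    haveI : P.1.IsPrime := P.2.1.1
    EichlerShimura.exists_finiteDVR_extension O R P.1 (hP0 P)
  let φ : ∀ P, R →+* W P := fun P => (f P).toRingHom
  have hloc : ∀ P, IsLocalHom (φ P) := fun P => RT.isLocalHom_of_algHom (f P)
  have hsep : ∀ x, (∀ P, φ P x = 0) → x = 0 := by
    intro x hx
    have hnil : x ∈ nilradical R := by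
      rw [show nilradical R = sInf (minimalPrimes _) from Ideal.sInf_minimalPrimes.symm,
        Ideal.mem_sInf]
      intro (P : Ideal R) hP
      rw [show P = RingHom.ker (f ⟨P, hP⟩) from (hf ⟨P, hP⟩).symm]
      exact hx ⟨P, hP⟩
    rwa [nilradical_eq_zero] at hnil
  choose rV hcond hfrob using fun P => hpt (W P) (hWinj P) (f P) (hloc P)
  choose t ht htres using exists_trace_of_frobenius (R := W) φ hloc hsep rV ρbar' S
    fun ℓ hℓ hℓS A hA σ hσ =>
      ⟨T ⟨ℓ, hℓ⟩, fun P => hfrob P ℓ hℓ hℓS A hA σ hσ, hbar ℓ hℓ hℓS A hA σ hσ⟩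
  obtain ⟨ρ, -, hmap, hres', -, hbc⟩ := exists_galoisRepAdic_of_family (O := W) φ hloc hsep rV t
    (fun P g => (ht g P).symm)
    (fun P => Density.det_eq_neg_one_of_detIsCyclotomic (rV P) hp hp2 (hcond P).1
      complexConjugation_mul_self EC.complexConjugation_ne_one) ρbar' habs'
    (fun g => (htres g).symm) h2
  have hdesc : ∀ {Q : ∀ ⦃A : Type⦄ [CommRing A] [IsLocalRing A], GaloisRepAdic A → Prop},
      IsDescending p Q → (∀ P, Q (rV P)) → Q ρ := fun hQ h =>
    RT.Assembly.descending_of_points (O := O) hQ hpR φ hloc hsep fun P =>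
      hQ.of_isEquiv (let ⟨e⟩ := hbc P; ⟨e.symm⟩) (h P)
  have hch : HasFrobenius ρ S T := fun ℓ hℓ hℓS A hA σ hσ =>
    RT.Assembly.eq_of_map_eq φ hsep fun P => by
      rw [hmap P σ, hfrob P ℓ hℓ hℓS A hA σ hσ, RT.Assembly.map_frobPoly]
      rfl
  refine ⟨ρ, ⟨hdesc (isDescending_detIsCyclotomic hp.ne_zero) fun P => (hcond P).1, fun hfl => ?_,
    fun hst => ?_, fun q hq hqp hqS hqQ => ?_⟩, hres', hch, ?_⟩
  · exact FlatCond.isFlatAt_of_points φ hloc hsep fun P =>
      Density.adic_isFlatAt_of_isEquiv (let ⟨e⟩ := hbc P; ⟨e.symm⟩) ((hcond P).2.1 hfl)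
  · exact (hdesc (isDescending_det_strictOrdinary hp hp2) fun P =>
      ⟨(hcond P).1, (hcond P).2.2.1 hst⟩).2
  · exact hdesc (isDescending_isUnramifiedAt q) fun P => (hcond P).2.2.2 q hq hqp hqS hqQ
  · intro V _ _ _ _ _ _ _ _ g hg ρV habsV hfrobV
    obtain ⟨e⟩ := Density.adic_isEquiv_of_frobenius ρV
      (ρ.baseChangeAlong (g : R →+* V) hg) S habsV
      fun ℓ hℓ hℓS A hA σ hσ => by
        rw [hfrobV ℓ hℓ hℓS A hA σ hσ, RT.charpoly_adic_baseChangeAlong,
          hch ℓ hℓ hℓS A hA σ hσ, RT.Assembly.map_frobPoly]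
        rfl
    exact ⟨e.symm⟩

end Fermat.Agent.Lifting.Rings

end
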