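import Fermat.Agent.Lifting.Rings.SitePresentation
import Fermat.Agent.Lifting.Patching.Raise.Defs

/-!
# The redundant free variable in the coordinates of the sites

An element `e` with `e - X_t` free of `X_t` in the framed local coordinates gives one in the
coordinates of the sites with the same image in the framed ring.
-/

set_option autoImplicit false
set_option linter.unusedSectionVars false

noncomputable section

namespace Fermat.Agent.Lifting.Rings

open IsLocalRing Matrix Fermat.Agent.RT Fermat.Agent.RT.LocalRing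
open Fermat.Agent.Lifting.Algebra (Site coordsOf familyOf familyOf_coordsOf coordsOf_familyOf
  centreCfg)
open Fermat.Agent.Lifting.Patching (eraseVar eraseVar_X_of_ne eraseVar_X_self)
open Deformation (Γ)

variable {O : Type} [CommRing O] [IsLocalRing O] [IsNoetherianRing O]
  [IsAdicComplete (maximalIdeal O) O] {R : Type} [CommRing R] [IsLocalRing R] [IsNoetherianRing R]
  [IsAdicComplete (maximalIdeal R) R] [Algebra O R] {s g : ℕ}

/-- `e` moved to the coordinates of the sites. -/
theorem exists_solves_of_sitePresentation [IsLocalHom (algebraMap O R)]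
    (rR : Γ →* Mat R) (el : Fin s → Fin 2 → Γ) (lift0 : Fin s → Fin 2 → Mat O)
    (S : Fin s → Site O) (G : Fin s → (Mat O)ˣ)
    (hG0 : ∀ j, cj (G j) (lift0 j 0) = (S j).centre.1)
    (hG1 : ∀ j, cj (G j) (lift0 j 1) = (S j).centre.2)
    (Φ : MvPowerSeries (LocVar s ⊕ Fin g) O →ₐ[O] MvPowerSeries (FrameVar s) R)
    (hX : ∀ i e a c, Φ (MvPowerSeries.X (Sum.inl (i, e, a, c))) =
      frameConj R s i (rR (el i e)) a c -
        algebraMap O (MvPowerSeries (FrameVar s) R) (lift0 i e a c))
    (Ψ : PSR (Fin s) (Fin g) O →ₐ[O] MvPowerSeries (FrameVar s) R)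
    (hΨm : ∀ i, Ψ (MvPowerSeries.X i) ∈ maximalIdeal (MvPowerSeries (FrameVar s) R))
    (hΨt : ∀ t, Ψ (MvPowerSeries.X (Sum.inr t)) = Φ (MvPowerSeries.X (Sum.inr t)))
    (hΨS : ∀ j, (familyOf S (Ψ ∘ MvPowerSeries.X)).1 j = sitePair G rR el j)
    (t : Fin g) (e : MvPowerSeries (LocVar s ⊕ Fin g) O)
    (he : ∀ r : MvPowerSeries (LocVar s ⊕ Fin g) O →ₐ[O] MvPowerSeries (LocVar s ⊕ Fin g) O,
      (∀ v, v ≠ Sum.inr t → r (MvPowerSeries.X v) = MvPowerSeries.X v) →
      r (e - MvPowerSeries.X (Sum.inr t)) = e - MvPowerSeries.X (Sum.inr t)) :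
    ∃ x : PSR (Fin s) (Fin g) O,
      (∀ n, Patching.RaiseData.Solves (some t) n x) ∧ Ψ x = Φ e := by
  classical
  have : IsLocalHom (algebraMap O (MvPowerSeries (FrameVar s) R)) := by
    rw [IsScalarTower.algebraMap_eq O R (MvPowerSeries (FrameVar s) R)]
    exact RingHom.isLocalHom_comp _ _
  let L := MvPowerSeries (LocVar s ⊕ Fin g) O
  let P := PSR (Fin s) (Fin g) O
  let bit : Fin 2 → Bool := ![false, true]
  -- the coordinates in the frame of the representation, as series at the sites
  let Mv : Fin s → Fin 2 → Mat P := fun j e =>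
    cj (unitIn (G j)⁻¹ P) (Matrix.of fun a c => MvPowerSeries.X (Sum.inl (j, bit e, a, c)))
  have hXP : ∀ i, (MvPowerSeries.X i : P) ∈ maximalIdeal P := Patching.X_mem_psr
  have hMvm : ∀ j e a c, Mv j e a c ∈ maximalIdeal P := fun j e a c => by
    simp only [Mv, cj, Matrix.mul_apply, Matrix.of_apply]
    exact Ideal.sum_mem _ fun k _ => Ideal.mul_mem_right _ _
      (Ideal.sum_mem _ fun l _ => Ideal.mul_mem_left _ _ (hXP _))
  have := mvPowerSeries_isAdicComplete (O := O) (σ := Idx (Fin s) (Fin g))
  obtain ⟨θ, hθ⟩ := exists_eval (L := O) (R := P)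
    (Sum.elim (fun v : LocVar s => Mv v.1 v.2.1 v.2.2.1 v.2.2.2)
      fun j : Fin g => MvPowerSeries.X (Sum.inr j)) (by
      rintro (⟨j, e, a, c⟩ | j)
      · exact hMvm j e a c
      · exact hXP _)
  -- the composite is the given presentation
  have hco : ∀ j e, (Matrix.of fun a c => Ψ (MvPowerSeries.X (Sum.inl (j, bit e, a, c)))) =
      cj (unitIn (G j) _) (frameConj R s j (rR (el j e)) -
        (lift0 j e).map (algebraMap O (MvPowerSeries (FrameVar s) R))) := by
    intro j e
    refine Matrix.ext fun a c => ?_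
    have hcfg : familyOf S (Ψ ∘ MvPowerSeries.X) =
        (sitePair G rR el, fun t => Φ (MvPowerSeries.X (Sum.inr t))) :=
      Prod.ext (funext hΨS) (funext fun t => hΨt t)
    rw [Matrix.of_apply, ← Function.comp_apply (f := Ψ) (g := MvPowerSeries.X),
      ← coordsOf_familyOf S (Ψ ∘ MvPowerSeries.X), hcfg, coordsOf_sitePair rR el lift0 S G hG0 hG1]
    fin_cases e <;> rfl
  have hmapM : ∀ j e, (Mv j e).map Ψ = frameConj R s j (rR (el j e)) -
      (lift0 j e).map (algebraMap O (MvPowerSeries (FrameVar s) R)) := by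
    intro j e
    have hu : Units.map ((Ψ : P →+* MvPowerSeries (FrameVar s) R).mapMatrix.toMonoidHom)
        (unitIn (G j)⁻¹ P) = (unitIn (G j) (MvPowerSeries (FrameVar s) R))⁻¹ := by
      refine Units.ext ?_
      rw [unitIn, unitIn, ← map_inv]
      refine Matrix.ext fun a c => ?_
      exact Ψ.commutes _
    show (cj (unitIn (G j)⁻¹ P) _).map (Ψ : P →+* MvPowerSeries (FrameVar s) R) = _
    rw [map_cj, hu]
    have : (Matrix.of fun a c => (MvPowerSeries.X (Sum.inl (j, bit e, a, c)) : P)).map
        (Ψ : P →+* MvPowerSeries (FrameVar s) R) =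
        Matrix.of fun a c => Ψ (MvPowerSeries.X (Sum.inl (j, bit e, a, c))) := rfl
    rw [this, hco, ← cj_mul, inv_mul_cancel, cj_one]
  have hcomp : Ψ.comp θ = Φ := by
    refine algHom_ext_X (fun v => ?_) fun v => ?_
    · rw [AlgHom.comp_apply, hθ]
      have hloc : ∀ z ∈ maximalIdeal P, Ψ z ∈ maximalIdeal (MvPowerSeries (FrameVar s) R) := by
        intro z hz
        rw [← sub_add_cancel z (algebraMap O P (MvPowerSeries.constantCoeff z)), map_add,
          Ψ.commutes]
        refine add_mem ?_ (map_nonunit (algebraMap O (MvPowerSeries (FrameVar s) R)) _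
          ((mem_maximalIdeal_mvPowerSeries z).mp hz))
        have h := Ideal.mem_map_of_mem Ψ (Deformation.sub_algebraMap_constantCoeff_mem z)
        rw [Deformation.varsIdeal, Ideal.map_span] at h
        refine Ideal.span_le.2 ?_ h
        rintro _ ⟨_, ⟨i, rfl⟩, rfl⟩
        exact hΨm i
      rcases v with ⟨j, e, a, c⟩ | j
      · exact hloc _ (hMvm j e a c)
      · exact hΨm _
    · rw [AlgHom.comp_apply, hθ]
      rcases v with ⟨j, e, a, c⟩ | j
      · rw [Sum.elim_inl, hX]
        exact congrFun (congrFun (hmapM j e) a) c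
      · rw [Sum.elim_inr, hΨt]
  refine ⟨θ e, fun n => ?_, AlgHom.congr_fun hcomp e⟩
  show eraseVar t (θ e - MvPowerSeries.X (Sum.inr t)) - (θ e - MvPowerSeries.X (Sum.inr t)) ∈ _
  have hXL : ∀ v, (MvPowerSeries.X v : L) ∈ maximalIdeal L := fun v =>
    (mem_maximalIdeal_mvPowerSeries _).mpr (by simp)
  have := mvPowerSeries_isAdicComplete (O := O) (σ := LocVar s ⊕ Fin g)
  obtain ⟨r, hr⟩ := exists_eval (L := O) (R := L)
    (fun v : LocVar s ⊕ Fin g => if v = Sum.inr t then 0 else MvPowerSeries.X v) fun v => by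
      split_ifs
      · exact zero_mem _
      · exact hXL v
  have hfix : ∀ (j : Fin s) (e : Fin 2),
      (Mv j e).map (eraseVar (O := O) (J := Fin s) t) = Mv j e := by
    intro j e
    show (cj (unitIn (G j)⁻¹ P) _).map (eraseVar (O := O) (J := Fin s) t : P →+* P) = _
    rw [map_cj]
    congr 1
    · refine Units.ext (Matrix.ext fun a c => ?_)
      exact (eraseVar (O := O) (J := Fin s) t).commutes _
    · exact Matrix.ext fun a c => eraseVar_X_of_ne t (by simp)
  have hrθ : (eraseVar (O := O) (J := Fin s) t).comp θ = θ.comp r := by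
    refine algHom_ext_X (fun v => ?_) fun v => ?_
    · rw [AlgHom.comp_apply, hθ]
      rcases v with ⟨j, e, a, c⟩ | j
      · have h2 : eraseVar (O := O) (J := Fin s) t (Mv j e a c) = Mv j e a c :=
          congrFun (congrFun (hfix j e) a) c
        rw [Sum.elim_inl, h2]
        exact hMvm j e a c
      · rcases eq_or_ne j t with rfl | hj
        · rw [Sum.elim_inr, eraseVar_X_self]; exact zero_mem _
        · rw [Sum.elim_inr, eraseVar_X_of_ne t (by simpa using hj)]; exact hXP _
    · rw [AlgHom.comp_apply, AlgHom.comp_apply, hθ, hr]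
      rcases v with ⟨j, e, a, c⟩ | j
      · rw [Sum.elim_inl, if_neg (by simp), hθ]
        exact congrFun (congrFun (hfix j e) a) c
      · rcases eq_or_ne j t with rfl | hj
        · rw [Sum.elim_inr, eraseVar_X_self, if_pos rfl, map_zero]
        · rw [Sum.elim_inr, eraseVar_X_of_ne t (by simpa using hj), if_neg (by simpa using hj), hθ,
            Sum.elim_inr]
  have h := congrArg θ (he r fun v hv => by rw [hr, if_neg hv])
  rw [← AlgHom.comp_apply, ← hrθ, AlgHom.comp_apply, map_sub θ, hθ, Sum.elim_inr] at h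
  rw [h, sub_self]
  exact zero_mem _

omit [IsLocalRing O] [IsNoetherianRing O] [IsAdicComplete (maximalIdeal O) O] [IsLocalRing R]
  [IsNoetherianRing R] [IsAdicComplete (maximalIdeal R) R] in
/-- The coefficients of an element killed by a point die there. -/
theorem map_coeff_eq_zero_of_map {A : Type} [CommRing A] [Algebra O A] (f : R →ₐ[O] A)
    {y : MvPowerSeries (FrameVar s) R} (hy : MvPowerSeries.map (f : R →+* A) y = 0)
    (d : FrameVar s →₀ ℕ) : f (MvPowerSeries.coeff d y) = 0 := by
  have := congrArg (MvPowerSeries.coeff d) hy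
  rwa [MvPowerSeries.coeff_map, map_zero] at this

end Fermat.Agent.Lifting.Rings
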