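import Fermat.Agent.Lifting.Rings.SharpKill

/-!
# Pairs of Hecke actions, the second one flat

If a pair algebra projects onto the image of `R` and onto a finite algebra with a flat
representation with the same Frobenius polynomials, then every element killed by the flat points of
`R` gives a pair with second component zero.
-/

set_option autoImplicit false
set_option linter.unusedSectionVars false

noncomputable section

namespace Fermat.Agent.Lifting.Rings

open IsLocalRing Fermat.Agent.RT GaloisRep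
open Deformation (Mat matOf mapRep Γ)

local notation "ℚ̄" => AlgebraicClosure ℚ

variable {O : Type} [CommRing O] [IsDomain O] [IsDiscreteValuationRing O]
  [IsAdicComplete (maximalIdeal O) O] {ρbar : ResidualGaloisRep (ResidueField O)}
  {𝒟 : ∀ ⦃A : Type⦄ [CommRing A] [IsLocalRing A] [Algebra O A], GaloisRepAdic A → Prop}
  {M₁ M₂ : Type} [Ring M₁] [Algebra O M₁] [Ring M₂] [Algebra O M₂]

/-- The elements with a zero component on either side. -/
def pairIdeal (P : Subalgebra O (M₁ × M₂)) : Submodule O P :=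
  LinearMap.ker ((LinearMap.fst O M₁ M₂).comp P.val.toLinearMap) ⊔
    LinearMap.ker ((LinearMap.snd O M₁ M₂).comp P.val.toLinearMap)

theorem pairIdeal_le_comap (P : Subalgebra O (M₁ × M₂)) (a : P) :
    pairIdeal P ≤ (pairIdeal P).comap (LinearMap.mulLeft O a) := by
  refine sup_le (fun x hx => Submodule.mem_sup_left ?_) fun x hx => Submodule.mem_sup_right ?_
  · have hx' : (x : M₁ × M₂).1 = 0 := hx
    show ((a * x : P) : M₁ × M₂).1 = 0
    rw [MulMemClass.coe_mul, Prod.fst_mul, hx', mul_zero]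
  · have hx' : (x : M₁ × M₂).2 = 0 := hx
    show ((a * x : P) : M₁ × M₂).2 = 0
    rw [MulMemClass.coe_mul, Prod.snd_mul, hx', mul_zero]

/-- Left multiplication modulo the pairs with a zero component. -/
def pairAct (P : Subalgebra O (M₁ × M₂)) : P →ₐ[O] Module.End O (P ⧸ pairIdeal P) where
  toFun a := (pairIdeal P).mapQ (pairIdeal P) (LinearMap.mulLeft O a) (pairIdeal_le_comap P a)
  map_one' := Submodule.linearMap_qext _ (LinearMap.ext fun x => by simp)
  map_mul' a b := Submodule.linearMap_qext _ (LinearMap.ext fun x => by simp)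
  map_zero' := Submodule.linearMap_qext _ (LinearMap.ext fun x => by simp)
  map_add' a b := Submodule.linearMap_qext _ (LinearMap.ext fun x => by simp [add_mul])
  commutes' c := Submodule.linearMap_qext _ (LinearMap.ext fun x => by
    simp [Algebra.algebraMap_eq_smul_one])

theorem pairAct_eq_of_fst_eq (P : Subalgebra O (M₁ × M₂)) {a b : P}
    (h : (a : M₁ × M₂).1 = (b : M₁ × M₂).1) : pairAct P a = pairAct P b := by
  rw [← sub_eq_zero, ← map_sub]
  refine Submodule.linearMap_qext _ (LinearMap.ext fun x => ?_)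
  show Submodule.Quotient.mk ((a - b) * x) = 0
  refine (Submodule.Quotient.mk_eq_zero _).mpr (Submodule.mem_sup_left ?_)
  show (((a - b) * x : P) : M₁ × M₂).1 = 0
  rw [MulMemClass.coe_mul, Prod.fst_mul, AddSubgroupClass.coe_sub, Prod.fst_sub, h, sub_self,
    zero_mul]

theorem pairAct_eq_of_snd_eq (P : Subalgebra O (M₁ × M₂)) {a b : P}
    (h : (a : M₁ × M₂).2 = (b : M₁ × M₂).2) : pairAct P a = pairAct P b := by
  rw [← sub_eq_zero, ← map_sub]
  refine Submodule.linearMap_qext _ (LinearMap.ext fun x => ?_)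
  show Submodule.Quotient.mk ((a - b) * x) = 0
  refine (Submodule.Quotient.mk_eq_zero _).mpr (Submodule.mem_sup_right ?_)
  show (((a - b) * x : P) : M₁ × M₂).2 = 0
  rw [MulMemClass.coe_mul, Prod.snd_mul, AddSubgroupClass.coe_sub, Prod.snd_sub, h, sub_self,
    zero_mul]

/-- A point of `R` through a pair algebra. -/
def pairPoint (P : Subalgebra O (M₁ × M₂)) {R : Type} [CommRing R] [Algebra O R]
    (act : R →ₐ[O] M₁) (hact : ∀ x, ∃ a : P, (a : M₁ × M₂).1 = act x) :
    R →ₐ[O] Module.End O (P ⧸ pairIdeal P) where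
  toFun x := pairAct P (hact x).choose
  map_one' := (pairAct_eq_of_fst_eq P (b := 1) (by
    rw [(hact 1).choose_spec, map_one]; rfl)).trans (map_one _)
  map_mul' x y := (pairAct_eq_of_fst_eq P (b := (hact x).choose * (hact y).choose) (by
    rw [(hact (x * y)).choose_spec, map_mul, MulMemClass.coe_mul, Prod.fst_mul,
      (hact x).choose_spec, (hact y).choose_spec])).trans (map_mul _ _ _)
  map_zero' := (pairAct_eq_of_fst_eq P (b := 0) (by
    rw [(hact 0).choose_spec, map_zero]; rfl)).trans (map_zero _)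
  map_add' x y := (pairAct_eq_of_fst_eq P (b := (hact x).choose + (hact y).choose) (by
    rw [(hact (x + y)).choose_spec, map_add, AddMemClass.coe_add, Prod.fst_add,
      (hact x).choose_spec, (hact y).choose_spec])).trans (map_add _ _ _)
  commutes' c := (pairAct_eq_of_fst_eq P (b := algebraMap O P c) (by
    rw [(hact _).choose_spec, AlgHom.commutes]; rfl)).trans (AlgHom.commutes _ c)

/-- A point of a second ring through a pair algebra, from the other side. -/
def pairPointSnd (P : Subalgebra O (M₁ × M₂)) {R : Type} [CommRing R] [Algebra O R]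
    (act : R →ₐ[O] M₂) (hact : ∀ x, ∃ a : P, (a : M₁ × M₂).2 = act x) :
    R →ₐ[O] Module.End O (P ⧸ pairIdeal P) where
  toFun x := pairAct P (hact x).choose
  map_one' := (pairAct_eq_of_snd_eq P (b := 1) (by
    rw [(hact 1).choose_spec, map_one]; rfl)).trans (map_one _)
  map_mul' x y := (pairAct_eq_of_snd_eq P (b := (hact x).choose * (hact y).choose) (by
    rw [(hact (x * y)).choose_spec, map_mul, MulMemClass.coe_mul, Prod.snd_mul,
      (hact x).choose_spec, (hact y).choose_spec])).trans (map_mul _ _ _)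
  map_zero' := (pairAct_eq_of_snd_eq P (b := 0) (by
    rw [(hact 0).choose_spec, map_zero]; rfl)).trans (map_zero _)
  map_add' x y := (pairAct_eq_of_snd_eq P (b := (hact x).choose + (hact y).choose) (by
    rw [(hact (x + y)).choose_spec, map_add, AddMemClass.coe_add, Prod.snd_add,
      (hact x).choose_spec, (hact y).choose_spec])).trans (map_add _ _ _)
  commutes' c := (pairAct_eq_of_snd_eq P (b := algebraMap O P c) (by
    rw [(hact _).choose_spec, AlgHom.commutes]; rfl)).trans (AlgHom.commutes _ c)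

/-- **What the flat points kill gives pairs with vanishing second component.** -/
theorem pair_coeff_mem_of_flat [Finite (ResidueField O)] {p : ℕ} [Fact p.Prime]
    (h𝒟 : IsDeformationCondition O 𝒟) (D : DeformationRingData O ρbar 𝒟)
    (bbar : Module.Basis (Fin 2) (ResidueField O) ρbar.V)
    (b : Module.Basis (Fin 2) D.R D.ρ.V)
    (hb : residueMat D b = mapRep (ResidueField.map (algebraMap O D.R)) (matOf ρbar.ρ bbar))
    [Module.Finite O M₁] [Module.Finite O M₂] (P : Subalgebra O (M₁ × M₂))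
    (act : D.R →ₐ[O] M₁) (hact : ∀ x, ∃ a : P, (a : M₁ × M₂).1 = act x)
    {R₀ : Type} [CommRing R₀] [IsLocalRing R₀] [Algebra O R₀] [Module.Finite O R₀]
    (ρ₀ : GaloisRepAdic R₀) (hflat : ρ₀.IsFlatAt p) (act₀ : R₀ →ₐ[O] M₂)
    (hact₀ : ∀ t, ∃ a : P, (a : M₁ × M₂).2 = act₀ t)
    (G₀ : Set R₀) (hG₀ : Algebra.adjoin O G₀ = ⊤)
    (hG : ∀ t ∈ G₀, ∃ x : D.R, (act x, act₀ t) ∈ P)
    (S : Finset ℕ)
    (hfrob : ∀ ℓ : ℕ, ℓ.Prime → ℓ ∉ S → ∀ A : ValuationSubring ℚ̄, A.LiesOverPrime ℓ →
      ∀ σ : Γ, A.IsFrobeniusAt σ ℓ → ∀ i, (act ((LinearMap.charpoly (D.ρ.ρ σ)).coeff i),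
        act₀ ((LinearMap.charpoly (ρ₀.ρ σ)).coeff i)) ∈ P)
    {τ : Type} (y : MvPowerSeries τ D.R)
    (hy : ∀ (A : Type) [CommRing A] [IsLocalRing A] [IsNoetherianRing A]
      [IsAdicComplete (maximalIdeal A) A] [Algebra O A] [IsLocalHom (algebraMap O A)],
      Function.Surjective (residue A ∘ algebraMap O A) →
      ∀ (f : D.R →ₐ[O] A) (hf : IsLocalHom (f : D.R →+* A)),
        𝒟 (D.ρ.baseChangeAlong (f : D.R →+* A) hf) →
        (D.ρ.baseChangeAlong (f : D.R →+* A) hf).IsFlatAt p →
        MvPowerSeries.map (f : D.R →+* A) y = 0)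
    (d : τ →₀ ℕ) : (act (MvPowerSeries.coeff d y), (0 : M₂)) ∈ P := by
  have : IsNoetherian O (M₁ × M₂) := isNoetherian_of_isNoetherianRing_of_finite O _
  have : IsNoetherian O P := isNoetherian_submodule' P.toSubmodule
  have key : ∀ x t, (act x, act₀ t) ∈ P →
      pairPoint P act hact x = pairPointSnd P act₀ hact₀ t := by
    intro x t h
    have h1 : pairPoint P act hact x = pairAct P ⟨_, h⟩ :=
      pairAct_eq_of_fst_eq P (hact x).choose_spec
    exact h1.trans (pairAct_eq_of_snd_eq P (hact₀ t).choose_spec).symm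
  have h := act_coeff_eq_zero_of_flat h𝒟 D bbar b hb (pairPoint P act hact) ρ₀ hflat
    (pairPointSnd P act₀ hact₀) G₀ hG₀
    (fun t ht => by obtain ⟨x, hx⟩ := hG t ht; exact ⟨x, key x t hx⟩) S
    (fun ℓ hℓ hℓS A hA σ hσ i => key _ _ (hfrob ℓ hℓ hℓS A hA σ hσ i)) y hy d
  have h1 : pairAct P (hact (MvPowerSeries.coeff d y)).choose
      (Submodule.Quotient.mk 1) = 0 := LinearMap.congr_fun h _
  have h2 : (hact (MvPowerSeries.coeff d y)).choose * 1 ∈ pairIdeal P :=
    (Submodule.Quotient.mk_eq_zero _).mp h1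
  rw [mul_one] at h2
  obtain ⟨u, hu, v, hv, huv⟩ := Submodule.mem_sup.mp h2
  have hu' : (u : M₁ × M₂).1 = 0 := hu
  have hv' : (v : M₁ × M₂).2 = 0 := hv
  have hv1 : (v : M₁ × M₂) = (act (MvPowerSeries.coeff d y), 0) := by
    refine Prod.ext ?_ hv'
    rw [← (hact (MvPowerSeries.coeff d y)).choose_spec, ← huv, AddMemClass.coe_add, Prod.fst_add,
      hu', zero_add]
  exact hv1 ▸ v.2

/-- A matrix witness for a pair of maps gives preimages of pairs of vectors. -/
theorem exists_preimage_of_witness {Λ : Type} [CommRing Λ] {a b : ℕ}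
    (down : Fin 2 → Matrix (Fin a) (Fin b) Λ) (Z : Fin 2 → Matrix (Fin b) (Fin a) Λ)
    (X : Matrix (Fin a) (Fin a) Λ) (hZ : ∀ i j, down i * Z j = if i = j then X else 0)
    (w : Fin 2 → Fin a → Λ) : ∃ v, ∀ i, (down i).mulVec v = X.mulVec (w i) := by
  classical
  refine ⟨∑ j, (Z j).mulVec (w j), fun i => ?_⟩
  rw [Matrix.mulVec_sum, Fintype.sum_eq_single i fun j hj => by
    rw [Matrix.mulVec_mulVec, hZ, if_neg (Ne.symm hj), Matrix.zero_mulVec]]
  rw [Matrix.mulVec_mulVec, hZ, if_pos rfl]

end Fermat.Agent.Lifting.Rings
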