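import Fermat.Agent.FlatLocal.AllowedCorner
import Fermat.Agent.RT.LocalAtP.TangentBound
import Fermat.Agent.TwoAdic.Selmer.Decomposition

/-!
# The tangent bound at `p` for deformations which are flat and strictly ordinary

In an adapted basis a class is `u • E₁₂` with `u` a cyclotomic cocycle. Flatness makes `u` allowed
on `Gal(C/K)`, so two classes are dependent, and when `h⁰ = 0` each is a multiple of the
residual extension, whose class is zero: the dimension is at most `h⁰(D_p, ad⁰)`.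
-/

set_option autoImplicit false

noncomputable section

namespace Fermat.Agent.Lifting.Rings

open IsLocalRing Fermat.Agent.RT Fermat.Agent.FlatLocal Fermat.Agent.Deformation
open Deformation (Mat Γ)

local notation "ℚ̄" => AlgebraicClosure ℚ

/-- The bound `dim L_p ≤ h⁰(D_p, ad⁰)`. -/
def SharpLocalBoundAtP {𝒪 : Type} [CommRing 𝒪] [IsLocalRing 𝒪]
    (rbar : Γ →* Mat (ResidueField 𝒪))
    (𝒟 : Finset ℕ → ∀ ⦃A : Type⦄ [CommRing A] [IsLocalRing A] [Algebra 𝒪 A],
      GaloisRepAdic A → Prop) (P₀ : ValuationSubring ℚ̄) : Prop :=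
  ∀ Q : Finset ℕ,
    FiniteDimensional (ResidueField 𝒪) (localClasses rbar (P₀.decompositionSubgroup ℚ)
      (Submodule.span (ResidueField 𝒪) (tangentSet (𝒟 Q) rbar))) ∧
    Module.finrank (ResidueField 𝒪) (localClasses rbar (P₀.decompositionSubgroup ℚ)
        (Submodule.span (ResidueField 𝒪) (tangentSet (𝒟 Q) rbar))) ≤
      Module.finrank (ResidueField 𝒪)
        ↥(commutantSpace rbar (P₀.decompositionSubgroup ℚ) ⊓ traceZero (ResidueField 𝒪))

theorem SharpLocalBoundAtP.localBoundAtP {𝒪 : Type} [CommRing 𝒪] [IsLocalRing 𝒪]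
    {rbar : Γ →* Mat (ResidueField 𝒪)}
    {𝒟 : Finset ℕ → ∀ ⦃A : Type⦄ [CommRing A] [IsLocalRing A] [Algebra 𝒪 A],
      GaloisRepAdic A → Prop} {P₀ : ValuationSubring ℚ̄}
    (h : SharpLocalBoundAtP rbar 𝒟 P₀) : LocalBoundAtP rbar 𝒟 P₀ := fun Q =>
  ⟨(h Q).1, (h Q).2.trans (Nat.le_succ _)⟩

/-- Elements of a set which are pairwise dependent span at most a line. -/
theorem exists_span_le_singleton {k E : Type} [Field k] [AddCommGroup E] [Module k E] (S : Set E)
    (h : ∀ x ∈ S, ∀ y ∈ S, ∃ a b : k, (a ≠ 0 ∨ b ≠ 0) ∧ a • x + b • y = 0) :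
    ∃ K : E, Submodule.span k S ≤ Submodule.span k {K} := by
  classical
  by_cases hall : ∀ x ∈ S, x = 0
  · exact ⟨0, Submodule.span_le.2 fun x hx => by simp [hall x hx]⟩
  push Not at hall
  obtain ⟨x, hx, hx0⟩ := hall
  refine ⟨x, Submodule.span_le.2 fun y hy => ?_⟩
  obtain ⟨a, b, hab, h0⟩ := h x hx y hy
  have hb : b ≠ 0 := fun hb => by
    rw [hb, zero_smul, add_zero] at h0
    exact hx0 ((smul_eq_zero.1 h0).resolve_left (hab.resolve_right (not_not.2 hb)))
  refine Submodule.mem_span_singleton.2 ⟨-(b⁻¹ * a), ?_⟩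
  rw [neg_smul, mul_smul, eq_comm, eq_neg_iff_add_eq_zero]
  have := congrArg (fun z => b⁻¹ • z) h0
  simp only [smul_add, smul_zero, smul_smul, inv_mul_cancel₀ hb, one_smul] at this
  rw [smul_smul, add_comm]
  exact this

variable {p : ℕ} [hp : Fact p.Prime] {k : Type} [Field k]

theorem liesOverPrime_padicPlace' : (padicPlace p).LiesOverPrime p :=
  TwoAdic.Selmer.liesOverPrime_padicPlace (q := ⟨p, hp.out⟩)

/-- The classes of the deformations which are flat and strictly ordinary at `p`. -/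
theorem finrank_localClasses_flat_strict_le [Finite k] [CharP k p] (hp2 : p ≠ 2)
    (rbar : Γ →* Mat k) (T : Set (Γ → Mat k))
    (hT : ∀ Z ∈ T,
      (∀ σ₀ ∈ (padicPlace p).inertiaSubgroupIn ℚ,
        IsStrictOrdClass p (padicPlace p) σ₀ rbar Z) ∧
      ∃ (R : Γ →* Mat (DualNumber k)) (hR : Deformation.IsCont R),
        (∀ g, R g = liftEntries rbar Z g) ∧ (Deformation.repOf R hR).IsFlatAt p) :
    FiniteDimensional k (localClasses rbar ((padicPlace p).decompositionSubgroup ℚ)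
        (Submodule.span k T)) ∧
      Module.finrank k (localClasses rbar ((padicPlace p).decompositionSubgroup ℚ)
        (Submodule.span k T)) ≤
      Module.finrank k ↥(commutantSpace rbar ((padicPlace p).decompositionSubgroup ℚ) ⊓
        traceZero k) := by
  classical
  have : NeZero p := ⟨hp.out.ne_zero⟩
  set P₀ := padicPlace p with hP₀def
  have hP₀ : P₀.LiesOverPrime p := liesOverPrime_padicPlace'
  set H := P₀.decompositionSubgroup ℚ with hH
  rcases Set.eq_empty_or_nonempty T with hempty | ⟨Z₁, hZ₁⟩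
  · have hbot : localClasses rbar H (Submodule.span k T) = ⊥ := by
      rw [localClasses, hempty, Submodule.span_empty, Submodule.map_bot, Submodule.map_bot]
    rw [hbot]
    exact ⟨inferInstance, by simp⟩
  have h2 : (2 : k) ≠ 0 := fun h => hp2 <| by
    have h' : ((2 : ℕ) : k) = 0 := by exact_mod_cast h
    exact (Nat.prime_dvd_prime_iff_eq hp.out Nat.prime_two).1 ((CharP.cast_eq_zero_iff k p 2).1 h')
  obtain ⟨σ₀, hσ₀, a₀, ha₀, ha₀ne⟩ := exists_mem_inertia_exponent hp.out hp2 hP₀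
  have hne : (a₀ : k) ≠ 1 := fun h => by
    refine ha₀ne ?_
    have h' : (((a₀ : ℤ) - 1 : ℤ) : k) = 0 := by push_cast; rw [h, sub_self]
    exact (CharP.intCast_eq_zero_iff k p _).mp h'
  obtain ⟨R₁, hR₁, heq₁, hdet₁⟩ := ((hT Z₁ hZ₁).1 σ₀ hσ₀).lift
  have htr₀ : (rbar σ₀).trace = 1 + (a₀ : k) := by
    have h := congrArg TrivSqZeroExt.fst heq₁.trace_eq
    rw [hdet₁ σ₀ a₀ ha₀, Matrix.trace_fin_two] at h
    simp [hR₁, fst_liftEntries] at h
    rw [Matrix.trace_fin_two, h]
  have hdet₀ : (rbar σ₀).det = (a₀ : k) := by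
    have h := congrArg TrivSqZeroExt.fst (hdet₁ σ₀ a₀ ha₀)
    rw [Matrix.det_fin_two] at h
    simp [hR₁, fst_liftEntries] at h
    rw [Matrix.det_fin_two, h]
  obtain ⟨v, hv10, hv00⟩ := exists_adapted_basis (rbar σ₀) (a₀ : k) hne htr₀ hdet₀
  have hv11 : conjBasis v rbar σ₀ 1 1 = 1 := by
    have h := (Matrix.trace_units_conj v (rbar σ₀)).trans htr₀
    rw [Matrix.trace_fin_two, hv00] at h
    show ((v : Mat k) * rbar σ₀ * (↑v⁻¹ : Mat k)) 1 1 = 1
    linear_combination h
  have key := fun Z (hZ : Z ∈ T) =>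
    exists_upperCocycle hp.out h2 hσ₀ ha₀ hne v hv10 hv00 hv11 ((hT Z hZ).1 σ₀ hσ₀)
  obtain ⟨hnf, -, -⟩ := key Z₁ hZ₁
  set Φ := upperClass rbar H v
  -- the local Galois group
  set loc := localGaloisToGlobal p
  have hmem : ∀ σ : Gp p, loc σ ∈ H := fun σ => localGaloisToGlobal_mem_decompositionSubgroup p σ
  have hsurj : ∀ g ∈ H, ∃ σ, loc σ = g := fun g hg => decompositionSubgroup_padicPlace.le hg
  let χ : Gp p → k := fun σ => omegaChar p k (loc σ)
  have hχ : ∀ z : PadicAlgCl p, IsPrimitiveRoot z p → ∀ σ : Gp p, ∀ a : ℕ, σ z = z ^ a →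
      χ σ = (a : k) := fun z hz σ a ha => by
    refine (natCast_exponent_eq (a := a) fun μ hμ => ?_).symm
    rw [pow_one] at hμ
    refine (padicEmbedding p).injective ?_
    obtain ⟨i, -, hi⟩ := hz.eq_pow_of_pow_eq_one (ξ := padicEmbedding p μ)
      (by rw [← map_pow, hμ, map_one])
    show padicEmbedding p (loc σ μ) = padicEmbedding p _
    rw [padicEmbedding_localGaloisToGlobal, map_pow, ← hi, map_pow, ha, ← pow_mul, ← pow_mul,
      mul_comm]
  -- the cocycle and the local model of a class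
  have hcls : ∀ Z ∈ T, ∃ (u : Γ → k) (R : Gp p →* Matrix (Fin 2) (Fin 2) (DualNumber k)),
      IsChiCocycle χ (u ∘ loc) ∧ HasLocalModel p (RepMod R) ∧
      (∀ σ, R σ = 1 → u (loc σ) = 0 ∧ rbar (loc σ) = 1) ∧
      (LinearMap.range ((resSub H).comp (adCoboundary rbar))).mkQ (resSub H Z) = Φ u := by
    intro Z hZ
    obtain ⟨-, -, u, hu, -, hZu⟩ := key Z hZ
    obtain ⟨R, hR, hRZ, hflat⟩ := (hT Z hZ).2
    refine ⟨u, locRep R, fun σ τ => ?_, hasLocalModel_of_isFlatAt hR hflat, fun σ hσ => ?_, hZu⟩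
    · show u (loc (σ * τ)) = u (loc σ) + omegaChar p k (loc σ) * u (loc τ)
      rw [map_mul]
      exact hu _ (hmem σ) _ (hmem τ)
    have hg : R (loc σ) = 1 := hσ
    have hr : rbar (loc σ) = 1 := by
      ext i j
      have h := congrArg TrivSqZeroExt.fst (congrFun (congrFun hg i) j)
      rw [hRZ, fst_liftEntries] at h
      rcases eq_or_ne i j with rfl | hij <;> simp_all
    have hZ0 : Z (loc σ) = 0 := by
      ext i j
      have h := congrArg TrivSqZeroExt.snd (congrFun (congrFun hg i) j)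
      rw [hRZ, snd_liftEntries, hr, mul_one] at h
      rcases eq_or_ne i j with rfl | hij <;> simp_all
    refine ⟨?_, hr⟩
    obtain ⟨X, hX⟩ := LinearMap.mem_range.1 ((Submodule.Quotient.eq _).1 hZu)
    have h := congrFun hX ⟨loc σ, hmem σ⟩
    have hrinv : rbar (loc σ)⁻¹ = 1 := by
      have := map_mul rbar (loc σ) (loc σ)⁻¹
      rw [mul_inv_cancel, map_one, hr, one_mul] at this
      exact this.symm
    change X - rbar (loc σ) * X * rbar (loc σ)⁻¹ =
      Z (loc σ) - u (loc σ) • ((↑v⁻¹ : Mat k) * upperE * (v : Mat k)) at h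
    rw [hr, hrinv, hZ0, one_mul, mul_one, sub_self, zero_sub, eq_comm, neg_eq_zero] at h
    refine (smul_eq_zero.1 h).resolve_right fun h0 => ?_
    have h1 := congrArg (fun M => (v : Mat k) * M * (↑v⁻¹ : Mat k)) h0
    simp only [mul_assoc, Units.mul_inv_cancel_left, Units.mul_inv, mul_one, mul_zero,
      zero_mul] at h1
    exact one_ne_zero (α := k) (by simpa [upperE] using congrFun (congrFun h1 0) 1)
  -- coboundaries
  have hcob : ∀ (f : Γ → k) (t : k), (∀ σ, f (loc σ) = t * (χ σ - 1)) → Φ f = 0 := by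
    intro f t hf
    refine upperClass_eq_zero (-t • upperE) fun d hd => ?_
    obtain ⟨σ, rfl⟩ := hsurj d hd
    obtain ⟨h10, hsq, h00⟩ := hnf _ hd
    have hm := map_mul (conjBasis v rbar) (loc σ) (loc σ)⁻¹
    rw [mul_inv_cancel, map_one] at hm
    have h10' := (hnf _ (H.inv_mem hd)).1
    have e11 := congrFun (congrFun hm 1) 1
    simp only [Matrix.mul_apply, Fin.sum_univ_two, h10, Matrix.one_apply_eq, zero_mul,
      zero_add] at e11
    show -t • upperE - conjBasis v rbar (loc σ) * (-t • upperE) * conjBasis v rbar (loc σ)⁻¹ = _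
    ext i j
    fin_cases i <;> fin_cases j <;>
      simp [upperE, Matrix.mul_apply, Fin.sum_univ_two, h10, h10', h00, hf, χ]
    linear_combination -(t * omegaChar p k (loc σ)) * e11
  -- two classes are dependent
  have hdep : ∀ x ∈ T, ∀ y ∈ T, ∀ u w : Γ → k,
      ∀ Rx Ry : Gp p →* Matrix (Fin 2) (Fin 2) (DualNumber k),
      HasLocalModel p (RepMod Rx) → HasLocalModel p (RepMod Ry) →
      IsChiCocycle χ (u ∘ loc) → IsChiCocycle χ (w ∘ loc) →
      (∀ σ, Rx σ = 1 → Ry σ = 1 → u (loc σ) = 0 ∧ w (loc σ) = 0) →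
      ∃ a b : k, (a ≠ 0 ∨ b ≠ 0) ∧ a • Φ u + b • Φ w = 0 ∧
        ∃ t, ∀ σ, a * u (loc σ) + b * w (loc σ) = t * (χ σ - 1) := by
    intro x _ y _ u w Rx Ry hx hy hu hw hz
    obtain ⟨a, b, t, hab, h⟩ := exists_dependent_cocycles hp2 ![Rx, Ry]
      (by intro i; fin_cases i <;> assumption) hχ hu hw
      (fun σ hσ => (hz σ (hσ 0) (hσ 1)).1) (fun σ hσ => (hz σ (hσ 0) (hσ 1)).2)
    refine ⟨a, b, hab, ?_, t, h⟩
    rw [← map_smul, ← map_smul, ← map_add]
    exact hcob _ t fun σ => h σ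
  have hle : ∀ U : Submodule k ((H → Mat k) ⧸
        LinearMap.range ((resSub H).comp (adCoboundary rbar))),
      (∀ Z ∈ T, (LinearMap.range ((resSub H).comp (adCoboundary rbar))).mkQ (resSub H Z) ∈ U) →
      localClasses rbar H (Submodule.span k T) ≤ U := by
    intro U hU
    rw [localClasses, Submodule.map_span, Submodule.map_span, Submodule.span_le]
    rintro _ ⟨_, ⟨Z, hZ, rfl⟩, rfl⟩
    exact hU Z hZ
  rcases Nat.eq_zero_or_pos (Module.finrank k ↥(commutantSpace rbar H ⊓ traceZero k)) with h0 | h0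
  · -- no invariants: every class is a multiple of the residual extension
    obtain ⟨hfmul, hf0, hfb⟩ := exists_upperClass_relation h2 rbar H v (omegaChar p k) hnf
      (Submodule.finrank_eq_zero.mp h0)
    set f : Γ → k := fun σ => conjBasis v rbar σ 0 1 * conjBasis v rbar σ 1 1 with hfdef
    have hbot : localClasses rbar H (Submodule.span k T) = ⊥ := by
      refine le_bot_iff.1 (hle ⊥ fun Z hZ => ?_)
      obtain ⟨u, R, hu, hR, hz, hZu⟩ := hcls Z hZ
      rw [Submodule.mem_bot, hZu]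
      have hf : IsChiCocycle χ (f ∘ loc) := fun σ τ => by
        show f (loc (σ * τ)) = f (loc σ) + omegaChar p k (loc σ) * f (loc τ)
        rw [map_mul]
        exact hfmul _ (hmem σ) _ (hmem τ)
      obtain ⟨a, b, hab, hΦ, t, ht⟩ := hdep Z hZ Z hZ u f R R hR hR hu hf fun σ hσ _ =>
        ⟨(hz σ hσ).1, by simp [hfdef, conjBasis_apply, (hz σ hσ).2]⟩
      rw [hf0, smul_zero, add_zero] at hΦ
      refine (smul_eq_zero.1 hΦ).resolve_left fun ha => ?_
      subst ha
      have hb : b ≠ 0 := hab.resolve_left (not_not.2 rfl)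
      refine hfb ⟨b⁻¹ * t, fun d hd => ?_⟩
      obtain ⟨σ, rfl⟩ := hsurj d hd
      have := ht σ
      show f (loc σ) = _
      rw [zero_mul, zero_add] at this
      rw [mul_assoc, ← this, inv_mul_cancel_left₀ hb]
    rw [hbot]
    exact ⟨inferInstance, by simp⟩
  · let S := (fun Z => (LinearMap.range ((resSub H).comp (adCoboundary rbar))).mkQ
      (resSub H Z)) '' T
    obtain ⟨K, hK⟩ := exists_span_le_singleton (k := k) S (by
      rintro _ ⟨x, hx, rfl⟩ _ ⟨y, hy, rfl⟩
      obtain ⟨u, Rx, hu, hRx, hzu, hxu⟩ := hcls x hx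
      obtain ⟨w, Ry, hw, hRy, hzw, hyw⟩ := hcls y hy
      obtain ⟨a, b, hab, hΦ, -⟩ := hdep x hx y hy u w Rx Ry hRx hRy hu hw fun σ h1 h2 =>
        ⟨(hzu σ h1).1, (hzw σ h2).1⟩
      exact ⟨a, b, hab, by dsimp only; rw [hxu, hyw, hΦ]⟩)
    have hU := hle (Submodule.span k {K}) fun Z hZ => hK (Submodule.subset_span ⟨Z, hZ, rfl⟩)
    have : FiniteDimensional k (Submodule.span k {K}) :=
      FiniteDimensional.span_of_finite k (Set.finite_singleton K)
    refine ⟨Submodule.finiteDimensional_of_le hU, (Submodule.finrank_mono hU).trans ?_⟩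
    by_cases hK0 : K = 0
    · rw [hK0, Submodule.span_zero_singleton]; simp
    · rw [finrank_span_singleton hK0]; omega

/-- `dim L_p ≤ h⁰` for conditions implying both the flat and the strict ordinary condition with
cyclotomic determinant. -/
theorem sharpLocalBoundAtP_flat_strictOrdinary {𝒪 : Type} [CommRing 𝒪] [IsLocalRing 𝒪]
    [Finite (ResidueField 𝒪)] (hp2 : p ≠ 2) (hp𝒪 : (p : 𝒪) ∈ maximalIdeal 𝒪)
    (rbar : Γ →* Mat (ResidueField 𝒪))
    (𝒟 : Finset ℕ → ∀ ⦃A : Type⦄ [CommRing A] [IsLocalRing A] [Algebra 𝒪 A],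
      GaloisRepAdic A → Prop)
    (h𝒟 : ∀ (Q : Finset ℕ) (ρ : GaloisRepAdic (DualNumber (ResidueField 𝒪))), 𝒟 Q ρ →
      ρ.DetIsCyclotomic p ∧ ρ.IsFlatAt p ∧ ρ.IsStrictOrdinaryAt p) :
    SharpLocalBoundAtP rbar 𝒟 (padicPlace p) := by
  intro Q
  have hpk : (p : ResidueField 𝒪) = 0 := by
    rw [← map_natCast (residue 𝒪), residue_eq_zero_iff]; exact hp𝒪
  have : CharP (ResidueField 𝒪) p := (CharP.charP_iff_prime_eq_zero hp.out).mpr hpk
  refine finrank_localClasses_flat_strict_le hp2 rbar _ fun Z hZ => ?_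
  have hlev := exists_finiteLevel_of_mem_tangentSet hZ
  obtain ⟨htr, hcoc, R, hR, hRZ, hD⟩ := hZ
  obtain ⟨hdet, hflat, hord⟩ := h𝒟 Q _ hD
  refine ⟨fun σ₀ hσ₀ => ⟨htr, hcoc, hlev, R, hRZ, ?_, fun σ a ha => ?_⟩, R, hR, hRZ, hflat⟩
  · have := StrictOrdEqns.of_hasStrictLine _ hσ₀ (stdBasis R hR)
      (hord.2 (padicPlace p) (liesOverPrime_padicPlace'))
    rwa [matOf_repOf] at this
  · have h := hdet.2 1 σ a ha
    rw [pow_one, show ((p : ℕ) : DualNumber (ResidueField 𝒪)) = 0 by ext <;> simp,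
      Ideal.span_singleton_eq_bot.mpr rfl, Ideal.mem_bot, sub_eq_zero] at h
    rw [← h, ← DFunLike.congr_fun (matOf_repOf R hR) σ, matOf_apply, LinearMap.det_toMatrix]

end Fermat.Agent.Lifting.Rings
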