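import Fermat.Prelude.Def_GaloisRep_DeformationRingData
import Fermat.Agent.Deformation.Tangent
import Fermat.Agent.Deformation.Universal
import Fermat.Agent.RT.Global.EulerFromLocal
import Fermat.Agent.RT.Global.Presentation
import Fermat.Agent.RT.Global.TameGeneration
import Fermat.Agent.RT.Global.TangentFinite
import Fermat.Agent.RT.LocalQ.Rep

/-!
# Deformation rings at Taylor–Wiles levels, presented over the local coordinates

For any family `𝒟 Q` of deformation conditions with cyclotomic determinant, unramified outside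
`S ∪ Q`, satisfying the bound at `p`: given the Greenberg–Wiles inequality there are `r` and, at
every depth, `r` Taylor–Wiles primes and a universal ring of `𝒟 Q` whose framed version is
generated by the local coordinates at `S \ {p}` and `r + (s - 1)` further variables.
-/

set_option autoImplicit false

noncomputable section

namespace Fermat.Agent.Lifting.Rings

open IsLocalRing Fermat.Agent.RT GaloisRep
open Deformation (Mat matOf mapRep Γ)

local notation "ℚ̄" => AlgebraicClosure ℚ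

variable {O : Type} [CommRing O] [IsDomain O] [IsDiscreteValuationRing O]
  [IsAdicComplete (maximalIdeal O) O] [Finite (ResidueField O)]

/-- The matrices of a residual representation factor through a finite level. -/
theorem factorsThroughFiniteLevel_matOf {k : Type} [Field k] (ρbar : ResidualGaloisRep k)
    (bbar : Module.Basis (Fin 2) k ρbar.V) :
    GaloisFactorsThroughFiniteLevel (matOf ρbar.ρ bbar) := by
  obtain ⟨L, hL, h⟩ := ρbar.factorsThroughFiniteLevel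
  exact ⟨L, hL, fun σ hσ => by
    rw [Deformation.matOf_apply, h σ hσ]; exact LinearMap.toMatrix_one _⟩

theorem nonempty_deformationRingData (p : ℕ) [Fact p.Prime] (hpO : (p : O) ∈ maximalIdeal O)
    {ρbar : ResidualGaloisRep (ResidueField O)} (habs : ρbar.IsAbsolutelyIrreducible)
    {𝒟 : ∀ ⦃A : Type⦄ [CommRing A] [IsLocalRing A] [Algebra O A], GaloisRepAdic A → Prop}
    (h𝒟 : IsDeformationCondition O 𝒟) (hbar : 𝒟 (GaloisRepAdic.ofResidualGaloisRep ρbar))
    (T : Finset ℕ)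
    (hur : ∀ ⦃A : Type⦄ [CommRing A] [IsLocalRing A] [Algebra O A] ⦃ρ : GaloisRepAdic A⦄,
      𝒟 ρ → ∀ q : ℕ, q.Prime → q ∉ T → ρ.IsUnramifiedAt q) :
    Nonempty (DeformationRingData O ρbar 𝒟) := by
  have hfin : TangentFinite O ρbar 𝒟 :=
    tangentFinite_of_unramified (Fact.out : p.Prime) hpO ρbar T fun ρ h => hur h
  obtain ⟨x, y, hp⟩ := Deformation.exists_isNormPair_residualMatrix habs
    (Module.finBasisOfFinrankEq _ ρbar.V ρbar.finrank_eq)
  exact Deformation.nonempty_deformationRingData_of_bound habs h𝒟 hbar _ hp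
    (Deformation.exists_natCard_quotient_le _ hp h𝒟 hfin)

/-- `GlobalEulerBound` is monotone in the excluded set. -/
theorem globalEulerBound_union {p : ℕ} {rbar : Γ →* Mat (ResidueField O)}
    {𝒟 : Finset ℕ → ∀ ⦃A : Type⦄ [CommRing A] [IsLocalRing A] [Algebra O A],
      GaloisRepAdic A → Prop}
    {S : Finset ℕ} {s : ℕ} {H : Fin s → Subgroup Γ} (h : GlobalEulerBound p rbar 𝒟 S H)
    (S₀ : Finset ℕ) : GlobalEulerBound p rbar 𝒟 (S ∪ S₀) H := by
  obtain ⟨V, U, hV, hV1, hV2, hb⟩ := h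
  refine ⟨V, U, hV, hV1, hV2, fun Q hQ => hb Q fun q hq => ⟨fun hm => (hQ q hq).1 ?_, (hQ q hq).2⟩⟩
  rcases Finset.mem_union.1 hm with hm | hm
  · exact Finset.mem_union_left _ (Finset.mem_union_left _ hm)
  · exact Finset.mem_union_right _ hm

/-- At every depth: Taylor–Wiles primes avoiding `S ∪ S₀` and a universal ring whose framed version
is presented over the local coordinates at `S \ {p}`. -/
theorem exists_taylorWilesRings (p : ℕ) [Fact p.Prime] (hp2 : p ≠ 2)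
    (hpO : (p : O) ∈ maximalIdeal O)
    (ρbar : ResidualGaloisRep (ResidueField O)) (habs : ρbar.IsAbsolutelyIrreducible)
    (hdet : (GaloisRepAdic.ofResidualGaloisRep ρbar).DetIsCyclotomic p)
    (hTW : ∀ (K : Type) [Field K] [Algebra (ResidueField O) K] (G : Subgroup Γ), G.index = 2 →
      ∀ V : Submodule K (ρbar.baseChange K).V,
        (∀ σ ∈ G, ∀ x ∈ V, (ρbar.baseChange K).ρ σ x ∈ V) → V = ⊥ ∨ V = ⊤)
    (bbar : Module.Basis (Fin 2) (ResidueField O) ρbar.V)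
    (𝒟 : Finset ℕ → ∀ ⦃A : Type⦄ [CommRing A] [IsLocalRing A] [Algebra O A],
      GaloisRepAdic A → Prop)
    (h𝒟 : ∀ Q, IsDeformationCondition O (𝒟 Q))
    (h𝒟det : ∀ Q, ∀ ⦃A : Type⦄ [CommRing A] [IsLocalRing A] [Algebra O A] ⦃ρ : GaloisRepAdic A⦄,
      𝒟 Q ρ → ρ.DetIsCyclotomic p)
    (S : Finset ℕ)
    (h𝒟ur : ∀ Q, ∀ ⦃A : Type⦄ [CommRing A] [IsLocalRing A] [Algebra O A] ⦃ρ : GaloisRepAdic A⦄,
      𝒟 Q ρ → ∀ l : ℕ, l.Prime → l ∉ S ∪ Q → ρ.IsUnramifiedAt l)
    (hbar : ∀ Q, 𝒟 Q (GaloisRepAdic.ofResidualGaloisRep ρbar))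
    (P₀ : ValuationSubring ℚ̄) (hGW : AdjointGW p (matOf ρbar.ρ bbar) S P₀)
    (hloc : LocalBoundAtP (matOf ρbar.ρ bbar) 𝒟 P₀)
    {s : ℕ} (ℓ : Fin s → ℕ) (hinj : Function.Injective ℓ)
    (hℓ : ∀ i, ℓ i ∈ S ∧ ℓ i ≠ p ∧ (ℓ i).Prime) (hcov : ∀ l ∈ S, l = p ∨ ∃ i, ℓ i = l)
    (T : ∀ i, TamePair p (ℓ i))
    (hres : ∀ i, ∀ τ ∈ (T i).A.inertiaSubgroupIn ℚ, ∃ k : ℕ, ρbar.ρ τ ^ p ^ k = 1)
    (el : Fin s → Fin 2 → Γ) (hel0 : ∀ i, el i 0 = (T i).F) (hel1 : ∀ i, el i 1 = (T i).σ)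
    (lift0 : Fin s → Fin 2 → Mat O)
    (hlift0 : ∀ i e, (lift0 i e).map (residue O) = matOf ρbar.ρ bbar (el i e))
    (S₀ : Finset ℕ) :
    ∃ r : ℕ, ∀ n : ℕ, ∃ qv : Fin r → ℕ, Function.Injective qv ∧
      (∀ i, qv i ∉ S ∧ qv i ∉ S₀ ∧
        IsTWPrime (matOf ρbar.ρ bbar).toHomUnits p (n + 1) (qv i)) ∧
      ∃ (D : DeformationRingData O ρbar (𝒟 (Finset.univ.image qv)))
        (b : Module.Basis (Fin 2) D.R D.ρ.V),
        residueMat D b = mapRep (ResidueField.map (algebraMap O D.R)) (matOf ρbar.ρ bbar) ∧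
        ∃ Φ : MvPowerSeries (LocVar s ⊕ Fin (r + (s - 1))) O →ₐ[O]
            MvPowerSeries (FrameVar s) D.R,
          Function.Surjective Φ ∧ ∀ i e a c, Φ (MvPowerSeries.X (Sum.inl (i, e, a, c))) =
            frameConj D.R s i (matOf D.ρ.ρ b (el i e)) a c -
              algebraMap O (MvPowerSeries (FrameVar s) D.R) (lift0 i e a c) := by
  have hfin := factorsThroughFiniteLevel_matOf ρbar bbar
  have htame : ∀ i, ∀ τ ∈ (T i).A.inertiaSubgroupIn ℚ,
      ∃ k : ℕ, matOf ρbar.ρ bbar τ ^ p ^ k = 1 := fun i τ hτ => by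
    obtain ⟨k, hk⟩ := hres i τ hτ
    exact ⟨k, by rw [← map_pow, RT.matOf_eq_one_iff, map_pow, hk]⟩
  obtain ⟨r, hr⟩ := exists_globalPresentation p hp2 hpO ρbar habs hdet hTW bbar 𝒟 h𝒟 h𝒟det
    (S ∪ S₀) (fun i => (T i).A.decompositionSubgroup ℚ) el
    (fun Q Z hZ i X hX d hd =>
      tangentSet_eq_adCoboundary_of_tamePair (hℓ i).2.2 (Ne.symm (hℓ i).2.1) hpO (T i) hfin
        (htame i) hZ X (hel1 i ▸ hX 1) (hel0 i ▸ hX 0) hd)
    (globalEulerBound_union (globalEulerBound_of p _ 𝒟 S P₀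
      (fun Q ρ hρ => h𝒟ur Q hρ) ℓ (fun i => (T i).A) hinj
      (fun i => ⟨(hℓ i).1, (hℓ i).2.1, (T i).hA⟩) hcov hGW hloc) S₀)
    lift0 hlift0
  refine ⟨r, fun n => ?_⟩
  obtain ⟨qv, hinjq, hqv, hpres⟩ := hr n
  refine ⟨qv, hinjq, fun i => ⟨fun h => (hqv i).1 (Finset.mem_union_left _ h),
    fun h => (hqv i).1 (Finset.mem_union_right _ h), (hqv i).2⟩, ?_⟩
  obtain ⟨D⟩ := nonempty_deformationRingData p hpO habs (h𝒟 (Finset.univ.image qv)) (hbar _)
    (S ∪ Finset.univ.image qv) fun _A _ _ _ _ρ h => h𝒟ur _ h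
  obtain ⟨b, hb⟩ := exists_basis_residueMat_eq D bbar
  exact ⟨D, b, hb, exists_frameRing_presentation D b el lift0 (hpres D b hb)⟩

end Fermat.Agent.Lifting.Rings
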