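import Fermat.Prelude.Def_GaloisRep_DeformationRingData
import Fermat.Agent.RT.Global.Framed
import Fermat.Agent.RT.Global.FrameRing
import Fermat.Agent.RT.LocalRing.Eval
import Fermat.Agent.RT.Tangent

/-!
# One free variable becomes redundant for a smaller condition

`D'` is a deformation ring for a condition contained in that of `D`. If the framed ring of `D'` is
generated over the local coordinates by fewer free elements than that of `D`, then some free
variable `X_j` is, modulo the kernel of the map to the smaller ring, a power series in the other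
variables.
-/

set_option autoImplicit false

noncomputable section

namespace Fermat.Agent.Lifting.Rings

open IsLocalRing Fermat.Agent.RT GaloisRep
open Deformation (Mat matOf mapRep Γ)

variable {O : Type} [CommRing O] [IsDomain O] [IsDiscreteValuationRing O]
  [IsAdicComplete (maximalIdeal O) O] {ρbar : ResidualGaloisRep (ResidueField O)}
  {𝒟 𝒟' : ∀ ⦃A : Type⦄ [CommRing A] [IsLocalRing A] [Algebra O A], GaloisRepAdic A → Prop}

/-- A point of a deformation ring in any complete ring reduces to the residual representation. -/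
theorem residual_isEquiv_baseChangeAlong (D : DeformationRingData O ρbar 𝒟)
    (b : Module.Basis (Fin 2) D.R D.ρ.V) (bbar : Module.Basis (Fin 2) (ResidueField O) ρbar.V)
    (hb : residueMat D b = mapRep (ResidueField.map (algebraMap O D.R)) (matOf ρbar.ρ bbar))
    {A : Type} [CommRing A] [IsLocalRing A] [Algebra O A] [IsLocalHom (algebraMap O A)]
    (f : D.R →ₐ[O] A) (hf : IsLocalHom (f : D.R →+* A))
    (bA : Module.Basis (Fin 2) A (D.ρ.baseChangeAlong (f : D.R →+* A) hf).V)
    (hbA : matOf (D.ρ.baseChangeAlong (f : D.R →+* A) hf).ρ bA =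
      mapRep (f : D.R →+* A) (matOf D.ρ.ρ b)) :
    (D.ρ.baseChangeAlong (f : D.R →+* A) hf).residual.IsEquiv
      (ρbar.baseChangeAlong (ResidueField.map (algebraMap O A))) := by
  refine Deformation.residual_isEquiv_of_map_eq ρbar bbar _ bA _ ?_
  rw [hbA]
  refine MonoidHom.ext fun g => Matrix.ext fun i j => ?_
  have he : residue D.R (matOf D.ρ.ρ b g i j) =
      ResidueField.map (algebraMap O D.R) (matOf ρbar.ρ bbar g i j) :=
    congrFun (congrFun (DFunLike.congr_fun hb g) i) j
  obtain ⟨c, hc⟩ := residue_surjective (R := O) (matOf ρbar.ρ bbar g i j)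
  show residue A (f (matOf D.ρ.ρ b g i j)) = ResidueField.map (algebraMap O A) _
  rw [← hc, ResidueField.map_residue] at he
  rw [← hc, ResidueField.map_residue, ← AlgHom.commutes f, ← sub_eq_zero, ← map_sub,
    residue_eq_zero_iff, ← map_sub]
  exact map_nonunit (f : D.R →+* A) _ (by rw [← residue_eq_zero_iff, map_sub, he, sub_self])

/-- The map from the ring of a condition to that of a smaller one, with a compatible basis. -/
theorem exists_map_of_imp (D : DeformationRingData O ρbar 𝒟) (D' : DeformationRingData O ρbar 𝒟')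
    (himp : ∀ ⦃A : Type⦄ [CommRing A] [IsLocalRing A] [Algebra O A] ⦃ρ : GaloisRepAdic A⦄,
      𝒟' ρ → 𝒟 ρ)
    (b : Module.Basis (Fin 2) D.R D.ρ.V) (bbar : Module.Basis (Fin 2) (ResidueField O) ρbar.V)
    (hb : residueMat D b = mapRep (ResidueField.map (algebraMap O D.R)) (matOf ρbar.ρ bbar)) :
    ∃ π : D.R →ₐ[O] D'.R, IsLocalHom (π : D.R →+* D'.R) ∧
      ∃ b' : Module.Basis (Fin 2) D'.R D'.ρ.V,
        matOf D'.ρ.ρ b' = mapRep (π : D.R →+* D'.R) (matOf D.ρ.ρ b) ∧
        residueMat D' b' = mapRep (ResidueField.map (algebraMap O D'.R)) (matOf ρbar.ρ bbar) := by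
  obtain ⟨π, ⟨hπ, ⟨e⟩⟩, -⟩ := D.universal D'.R D'.residue_surjective D'.ρ (himp D'.isOfType)
    D'.residual_isEquiv
  obtain ⟨b₀, hb₀⟩ := Deformation.exists_basis_baseChangeAlong D.ρ b (π : D.R →+* D'.R) hπ
  refine ⟨π, hπ, b₀.map e.toLinearEquiv, ?_, ?_⟩
  · rw [Deformation.matOf_map_equiv _ D'.ρ.ρ b₀ e.toLinearEquiv e.map_apply, hb₀]
  rw [residueMat, Deformation.matOf_map_equiv _ D'.ρ.ρ b₀ e.toLinearEquiv e.map_apply, hb₀]
  refine MonoidHom.ext fun g => Matrix.ext fun i j => ?_
  have he : residue D.R (matOf D.ρ.ρ b g i j) =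
      ResidueField.map (algebraMap O D.R) (matOf ρbar.ρ bbar g i j) :=
    congrFun (congrFun (DFunLike.congr_fun hb g) i) j
  obtain ⟨c, hc⟩ := residue_surjective (R := O) (matOf ρbar.ρ bbar g i j)
  show residue D'.R (π (matOf D.ρ.ρ b g i j)) = ResidueField.map (algebraMap O D'.R) _
  rw [← hc, ResidueField.map_residue] at he
  rw [← hc, ResidueField.map_residue, ← AlgHom.commutes π, ← sub_eq_zero, ← map_sub,
    residue_eq_zero_iff, ← map_sub]
  exact map_nonunit (π : D.R →+* D'.R) _ (by rw [← residue_eq_zero_iff, map_sub, he, sub_self])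

/-- A point of the smaller condition factors through the smaller ring. -/
theorem exists_factor_of_imp (D : DeformationRingData O ρbar 𝒟)
    (D' : DeformationRingData O ρbar 𝒟')
    (himp : ∀ ⦃A : Type⦄ [CommRing A] [IsLocalRing A] [Algebra O A] ⦃ρ : GaloisRepAdic A⦄,
      𝒟' ρ → 𝒟 ρ)
    (b : Module.Basis (Fin 2) D.R D.ρ.V) (bbar : Module.Basis (Fin 2) (ResidueField O) ρbar.V)
    (hb : residueMat D b = mapRep (ResidueField.map (algebraMap O D.R)) (matOf ρbar.ρ bbar))
    (π : D.R →ₐ[O] D'.R) (hπ : IsLocalHom (π : D.R →+* D'.R))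
    (b' : Module.Basis (Fin 2) D'.R D'.ρ.V)
    (hb' : matOf D'.ρ.ρ b' = mapRep (π : D.R →+* D'.R) (matOf D.ρ.ρ b))
    {A : Type} [CommRing A] [IsLocalRing A] [IsNoetherianRing A]
    [IsAdicComplete (maximalIdeal A) A] [Algebra O A] [IsLocalHom (algebraMap O A)]
    (hA : Function.Surjective (residue A ∘ algebraMap O A))
    (f : D.R →ₐ[O] A) (hf : IsLocalHom (f : D.R →+* A))
    (hfD : 𝒟' (D.ρ.baseChangeAlong (f : D.R →+* A) hf)) :
    ∃ φ : D'.R →ₐ[O] A, φ.comp π = f := by
  obtain ⟨bA, hbA⟩ := Deformation.exists_basis_baseChangeAlong D.ρ b (f : D.R →+* A) hf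
  have hres := residual_isEquiv_baseChangeAlong D b bbar hb f hf bA hbA
  obtain ⟨φ, ⟨hφ, ⟨e⟩⟩, -⟩ := D'.universal A hA _ hfD hres
  refine ⟨φ, ?_⟩
  obtain ⟨θ, -, huniq⟩ := D.universal A hA _ (himp hfD) hres
  have hloc : IsLocalHom ((φ.comp π : D.R →ₐ[O] A) : D.R →+* A) :=
    @RingHom.isLocalHom_comp _ _ _ _ _ _ (φ : D'.R →+* A) (π : D.R →+* D'.R) hφ hπ
  obtain ⟨c, hc⟩ := Deformation.exists_basis_baseChangeAlong D.ρ b
    ((φ.comp π : D.R →ₐ[O] A) : D.R →+* A) hloc
  obtain ⟨c', hc'⟩ := Deformation.exists_basis_baseChangeAlong D'.ρ b' (φ : D'.R →+* A) hφ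
  have h2 : (D.ρ.baseChangeAlong ((φ.comp π : D.R →ₐ[O] A) : D.R →+* A) hloc).IsEquiv
      (D'.ρ.baseChangeAlong (φ : D'.R →+* A) hφ) := by
    refine Deformation.isEquiv_of_matOf_eq c c' ?_
    rw [hc, hc', hb']
    exact MonoidHom.ext fun g => Matrix.ext fun i j => rfl
  obtain ⟨e₂⟩ := h2
  exact (huniq _ ⟨hloc, ⟨e₂.trans e⟩⟩).trans (huniq f ⟨hf, ⟨GaloisRepAdic.Equiv.refl _⟩⟩).symm

omit [IsDomain O] [IsDiscreteValuationRing O] [IsAdicComplete (maximalIdeal O) O] in
/-- A tangent vector vanishing at the images of the variables under a surjection is zero. -/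
theorem tanSpace_eq_zero_of_surjective [IsLocalRing O] {σ : Type} [Finite σ] {B : Type} [CommRing B]
    [IsLocalRing B] [Algebra O B] [IsLocalHom (algebraMap O B)]
    (hres : Function.Surjective (residue B ∘ algebraMap O B))
    (Φ : MvPowerSeries σ O →ₐ[O] B) (hΦ : Function.Surjective Φ)
    (hm : ∀ i, Φ (MvPowerSeries.X i) ∈ maximalIdeal B)
    {δ : B → ResidueField O} (h : δ ∈ tanSpace O (residueHom hres))
    (h0 : ∀ i, δ (Φ (MvPowerSeries.X i)) = 0) : δ = 0 := by
  funext x
  obtain ⟨P, rfl⟩ := hΦ x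
  have hP : Φ (P - algebraMap O _ (MvPowerSeries.constantCoeff P)) ∈
      Ideal.span (Set.range fun i => Φ (MvPowerSeries.X i)) := by
    have := Ideal.mem_map_of_mem Φ (Deformation.sub_algebraMap_constantCoeff_mem P)
    rw [Deformation.varsIdeal, Ideal.map_span] at this
    refine Ideal.span_mono ?_ this
    rintro _ ⟨_, ⟨i, rfl⟩, rfl⟩
    exact ⟨i, rfl⟩
  have h1 := tanSpace_eq_zero_on_span h
    (by rintro _ ⟨i, rfl⟩; exact (residueHom_eq_zero_iff hres _).mpr (hm i))
    (by rintro _ ⟨i, rfl⟩; exact h0 i) hP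
  rwa [map_sub, AlgHom.commutes, tanSpace_map_sub h, tanSpace_map_algebraMap h, sub_zero] at h1


open scoped Classical in
/-- A free variable solved for modulo the kernel of the map to the framed ring of the smaller
condition. -/
theorem exists_erase_variable (hD' : IsDeformationCondition O 𝒟')
    (D : DeformationRingData O ρbar 𝒟) (D' : DeformationRingData O ρbar 𝒟')
    (b : Module.Basis (Fin 2) D.R D.ρ.V) (bbar : Module.Basis (Fin 2) (ResidueField O) ρbar.V)
    (π : D.R →ₐ[O] D'.R) (hπ : IsLocalHom (π : D.R →+* D'.R))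
    (b' : Module.Basis (Fin 2) D'.R D'.ρ.V)
    (hb' : matOf D'.ρ.ρ b' = mapRep (π : D.R →+* D'.R) (matOf D.ρ.ρ b))
    (hb'r : residueMat D' b' = mapRep (ResidueField.map (algebraMap O D'.R)) (matOf ρbar.ρ bbar))
    {s g g' : ℕ} (hg : g' < g) (el : Fin s → Fin 2 → Γ) (lift0 : Fin s → Fin 2 → Mat O)
    (Φ : MvPowerSeries ((Fin s × Fin 2 × Fin 2 × Fin 2) ⊕ Fin g) O →ₐ[O]
      MvPowerSeries (FrameVar s) D.R) (hΦ : Function.Surjective Φ)
    (hΦX : ∀ i e a c, Φ (MvPowerSeries.X (Sum.inl (i, e, a, c))) =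
      frameConj D.R s i (matOf D.ρ.ρ b (el i e)) a c -
        algebraMap O (MvPowerSeries (FrameVar s) D.R) (lift0 i e a c))
    (Φ' : MvPowerSeries ((Fin s × Fin 2 × Fin 2 × Fin 2) ⊕ Fin g') O →ₐ[O]
      MvPowerSeries (FrameVar s) D'.R) (hΦ' : Function.Surjective Φ')
    (hΦ'X : ∀ i e a c, Φ' (MvPowerSeries.X (Sum.inl (i, e, a, c))) =
      frameConj D'.R s i (matOf D'.ρ.ρ b' (el i e)) a c -
        algebraMap O (MvPowerSeries (FrameVar s) D'.R) (lift0 i e a c)) :
    ∃ (j₀ : Fin g) (e : MvPowerSeries ((Fin s × Fin 2 × Fin 2 × Fin 2) ⊕ Fin g) O),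
      (∀ r : MvPowerSeries ((Fin s × Fin 2 × Fin 2 × Fin 2) ⊕ Fin g) O →ₐ[O]
          MvPowerSeries ((Fin s × Fin 2 × Fin 2 × Fin 2) ⊕ Fin g) O,
        (∀ v, v ≠ Sum.inr j₀ → r (MvPowerSeries.X v) = MvPowerSeries.X v) →
        r (e - MvPowerSeries.X (Sum.inr j₀)) = e - MvPowerSeries.X (Sum.inr j₀)) ∧
      MvPowerSeries.map (π : D.R →+* D'.R) (Φ e) = 0 := by
  have := hπ
  let P := MvPowerSeries ((Fin s × Fin 2 × Fin 2 × Fin 2) ⊕ Fin g) O
  let B := MvPowerSeries (FrameVar s) D.R
  let B' := MvPowerSeries (FrameVar s) D'.R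
  have hlocB : IsLocalHom (algebraMap O B) := by
    rw [IsScalarTower.algebraMap_eq O D.R B]
    exact RingHom.isLocalHom_comp _ _
  have hlocB' : IsLocalHom (algebraMap O B') := by
    rw [IsScalarTower.algebraMap_eq O D'.R B']
    exact RingHom.isLocalHom_comp _ _
  have hresB : Function.Surjective (residue B ∘ algebraMap O B) :=
    residue_surjective_mvPowerSeries D.residue_surjective
  have hresB' : Function.Surjective (residue B' ∘ algebraMap O B') :=
    residue_surjective_mvPowerSeries D'.residue_surjective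
  let μ : B →ₐ[O] B' := MvPowerSeries.mapAlgHom π
  have hμm : ∀ x ∈ maximalIdeal B, μ x ∈ maximalIdeal B' := fun x hx => by
    rw [mem_maximalIdeal_mvPowerSeries] at hx ⊢
    rw [MvPowerSeries.mapAlgHom_apply, MvPowerSeries.constantCoeff_map]
    exact map_nonunit (π : D.R →+* D'.R) _ hx
  have hΦm : ∀ v, Φ (MvPowerSeries.X v) ∈ maximalIdeal B := fun v => by
    have := IsLocalHom.of_surjective (Φ : P →+* B) hΦ
    exact map_nonunit (Φ : P →+* B) _
      ((mem_maximalIdeal_mvPowerSeries _).mpr (by simp))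
  have hΦ'm : ∀ v, Φ' (MvPowerSeries.X v) ∈ maximalIdeal B' := fun v => by
    have := IsLocalHom.of_surjective
      (Φ' : MvPowerSeries ((Fin s × Fin 2 × Fin 2 × Fin 2) ⊕ Fin g') O →+* B') hΦ'
    exact map_nonunit (Φ' : MvPowerSeries ((Fin s × Fin 2 × Fin 2 × Fin 2) ⊕ Fin g') O →+* B') _
      ((mem_maximalIdeal_mvPowerSeries _).mpr (by simp))
  have hμY : ∀ i, (frameY D.R s i).map μ = frameY D'.R s i := fun i => Matrix.ext fun a c => by
    simp only [Matrix.map_apply, frameY, Matrix.of_apply]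
    split
    · exact MvPowerSeries.map_X _ _
    · exact map_zero μ
  have hμC : ∀ x, μ (algebraMap D.R B x) = algebraMap D'.R B' (π x) := fun x =>
    MvPowerSeries.map_C _ _
  have hμF : ∀ i (M : Mat D.R), (frameConj D.R s i M).map μ = frameConj D'.R s i (M.map π) := by
    intro i M
    have h := congrArg (fun N => μ.mapMatrix N) (frameConj_mul D.R s i M)
    simp only [map_mul, map_add, map_one, AlgHom.mapMatrix_apply, hμY] at h
    rw [← (isUnit_one_add_frameY D'.R s i).mul_left_inj, h, frameConj_mul, Matrix.map_map,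
      Matrix.map_map]
    congr 1
    exact Matrix.ext fun a c => hμC _
  have hμX : ∀ v, μ (Φ (MvPowerSeries.X (Sum.inl v))) = Φ' (MvPowerSeries.X (Sum.inl v)) := by
    rintro ⟨i, e, a, c⟩
    rw [hΦX, hΦ'X, map_sub, AlgHom.commutes, hb']
    exact congrArg (· - _) (congrFun (congrFun (hμF i _) a) c)
  -- tangent vectors of the smaller framed ring
  have hπB : ∀ x, residueHom (𝒪 := O) hresB' (μ x) = residueHom (𝒪 := O) hresB x := by
    intro x
    obtain ⟨c, hc⟩ := hresB (residue B x)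
    have hm : x - algebraMap O B c ∈ maximalIdeal B := by
      rw [← residue_eq_zero_iff, map_sub, sub_eq_zero]
      exact hc.symm
    have h1 := (residueHom_eq_zero_iff (𝒪 := O) hresB' _).mpr (hμm _ hm)
    have h2 := (residueHom_eq_zero_iff (𝒪 := O) hresB _).mpr hm
    rw [map_sub, map_sub, AlgHom.commutes, residueHom_algebraMap, sub_eq_zero] at h1
    rw [map_sub, residueHom_algebraMap, sub_eq_zero] at h2
    rw [h1, h2]
  have hπC : ∀ x, residueHom (𝒪 := O) hresB' (algebraMap D'.R B' x) =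
      residueHom (𝒪 := O) D'.residue_surjective x := by
    intro x
    obtain ⟨c, hc⟩ := D'.residue_surjective (residue D'.R x)
    have hm : x - algebraMap O D'.R c ∈ maximalIdeal D'.R := by
      rw [← residue_eq_zero_iff, map_sub, sub_eq_zero]
      exact hc.symm
    have h1 := (residueHom_eq_zero_iff (𝒪 := O) hresB' _).mpr
      (map_nonunit (algebraMap D'.R B') _ hm)
    have h2 := (residueHom_eq_zero_iff (𝒪 := O) D'.residue_surjective _).mpr hm
    rw [map_sub, map_sub, ← IsScalarTower.algebraMap_apply, residueHom_algebraMap, sub_eq_zero]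
      at h1
    rw [map_sub, residueHom_algebraMap, sub_eq_zero] at h2
    rw [h1, h2]
  let x₀ : (Fin s × Fin 2 × Fin 2 × Fin 2) → B' := fun v => μ (Φ (MvPowerSeries.X (Sum.inl v)))
  let z : Fin g → B' := fun j => μ (Φ (MvPowerSeries.X (Sum.inr j)))
  let K : Submodule (ResidueField O) (B' → ResidueField O) :=
    tanSpace O (residueHom (𝒪 := O) hresB') ⊓ ⨅ v, LinearMap.ker (LinearMap.proj (x₀ v))
  have hK : ∀ δ, δ ∈ K ↔ δ ∈ tanSpace O (residueHom (𝒪 := O) hresB') ∧ ∀ v, δ (x₀ v) = 0 :=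
    fun δ => by simp [K, Submodule.mem_iInf]
  let L : K →ₗ[ResidueField O] (Fin g → ResidueField O) :=
    { toFun := fun δ j => δ.1 (z j)
      map_add' := fun _ _ => rfl
      map_smul' := fun _ _ => rfl }
  have hLinj : ∀ δ ∈ K, (∀ j, δ (z j) = 0) → δ = 0 := by
    intro δ hδ hz
    obtain ⟨hδt, hδx⟩ := (hK δ).mp hδ
    have h' : δ ∘ μ = 0 := by
      refine tanSpace_eq_zero_of_surjective hresB Φ hΦ hΦm ⟨fun u v => ?_, fun u v => ?_,
        fun c => ?_⟩ ?_
      · simp only [Function.comp_apply, map_add, tanSpace_map_add hδt]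
      · simp only [Function.comp_apply, map_mul, tanSpace_map_mul hδt, hπB]
      · simp only [Function.comp_apply, AlgHom.commutes, tanSpace_map_algebraMap hδt]
      · rintro (v | j)
        · exact hδx v
        · exact hz j
    have hR : δ ∘ algebraMap D'.R B' = 0 := by
      refine eq_zero_of_tanCocycle_mem_range D' bbar b' hb'r ⟨fun u v => ?_, fun u v => ?_,
        fun c => ?_⟩ hD' ?_
      · simp only [Function.comp_apply, map_add, tanSpace_map_add hδt]
      · simp only [Function.comp_apply, map_mul, tanSpace_map_mul hδt, hπC]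
      · simp only [Function.comp_apply, ← IsScalarTower.algebraMap_apply,
          tanSpace_map_algebraMap hδt]
      · refine ⟨0, (map_zero _).trans (funext fun σ => ?_)⟩
        have h0 : (matOf D'.ρ.ρ b' σ).map (δ ∘ algebraMap D'.R B') = 0 := by
          refine Matrix.ext fun a c => ?_
          rw [hb', Matrix.map_apply, Function.comp_apply]
          show δ (algebraMap D'.R B' (π (matOf D.ρ.ρ b σ a c))) = 0
          rw [← hμC]
          exact congrFun h' _
        show 0 = tanCocycle D' bbar b' (δ ∘ algebraMap D'.R B') σ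
        rw [tanCocycle, h0, zero_mul]
    refine tanSpace_eq_zero_of_maximalIdeal hresB' hδt fun m hm => ?_
    obtain ⟨u, hu, w, hw, rfl⟩ := Submodule.mem_sup.mp (maximalIdeal_frameRing_le D'.R s hm)
    have hu0 : δ u = 0 := tanSpace_eq_zero_on_span hδt
      (by rintro _ ⟨⟨i, a, d⟩, rfl⟩
          exact (residueHom_eq_zero_iff hresB' _).mpr (frameY_mem D'.R s i a d))
      (by rintro _ ⟨⟨i, a, d⟩, rfl⟩
          have hY : μ (frameY D.R s i a d) = frameY D'.R s i a d :=
            congrFun (congrFun (hμY i) a) d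
          show δ (frameY D'.R s i a d) = 0
          rw [← hY]
          exact congrFun h' _) hu
    have hw0 : δ w = 0 := tanSpace_eq_zero_on_span hδt
      (s := algebraMap D'.R B' '' (maximalIdeal D'.R : Set D'.R))
      (by rintro _ ⟨q, hq, rfl⟩
          exact (residueHom_eq_zero_iff hresB' _).mpr (map_nonunit (algebraMap D'.R B') q hq))
      (by rintro _ ⟨q, -, rfl⟩; exact congrFun hR q) hw
    rw [tanSpace_map_add hδt, hu0, hw0, add_zero]
  let L' : K →ₗ[ResidueField O] (Fin g' → ResidueField O) :=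
    { toFun := fun δ j => δ.1 (Φ' (MvPowerSeries.X (Sum.inr j)))
      map_add' := fun _ _ => rfl
      map_smul' := fun _ _ => rfl }
  have hL' : Function.Injective L' := by
    rw [← LinearMap.ker_eq_bot, LinearMap.ker_eq_bot']
    rintro ⟨δ, hδ⟩ h0
    obtain ⟨hδt, hδx⟩ := (hK δ).mp hδ
    refine Subtype.ext (tanSpace_eq_zero_of_surjective hresB' Φ' hΦ' hΦ'm hδt ?_)
    rintro (v | j)
    · rw [← hμX]; exact hδx v
    · exact congrFun h0 j
  have : FiniteDimensional (ResidueField O) K := Module.Finite.of_injective L' hL'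
  have hKg : Module.finrank (ResidueField O) K ≤ g' :=
    (LinearMap.finrank_le_finrank_of_injective hL').trans_eq (Module.finrank_fin_fun _)
  -- some coordinate vector is not a value of `L`
  obtain ⟨j₀, hj₀⟩ : ∃ j₀ : Fin g, Pi.single j₀ (1 : ResidueField O) ∉ LinearMap.range L := by
    by_contra hall
    push Not at hall
    have htop : LinearMap.range L = ⊤ := by
      rw [eq_top_iff, ← (Pi.basisFun (ResidueField O) (Fin g)).span_eq, Submodule.span_le]
      rintro _ ⟨j, rfl⟩
      rw [Pi.basisFun_apply]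
      exact hall j
    have h1 := LinearMap.finrank_range_le L
    rw [htop, finrank_top, Module.finrank_fin_fun] at h1
    omega
  have hsep : ∀ δ ∈ K, (∀ j, j ≠ j₀ → δ (z j) = 0) → δ = 0 := by
    intro δ hδ hz
    refine hLinj δ hδ fun j => ?_
    by_cases hj : j = j₀
    · subst hj
      by_contra hne
      refine hj₀ ⟨(δ (z j))⁻¹ • ⟨δ, hδ⟩, funext fun i => ?_⟩
      show (δ (z j))⁻¹ • δ (z i) = _
      by_cases hi : i = j
      · subst hi; rw [smul_eq_mul, inv_mul_cancel₀ hne, Pi.single_eq_same]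
      · rw [hz i hi, smul_zero, Pi.single_eq_of_ne hi]
    · exact hz j hj
  -- the other variables generate
  let x : (Fin s × Fin 2 × Fin 2 × Fin 2) ⊕ {j : Fin g // j ≠ j₀} → B' :=
    Sum.elim x₀ fun j => z j.1
  have hx : ∀ v, x v ∈ maximalIdeal B' := by
    rintro (v | j) <;> exact hμm _ (hΦm _)
  obtain ⟨Ψ, hΨ, hΨX⟩ := exists_mvPowerSeries_surjective_of_tanSpace hresB' x hx (g := 0)
    (W := Fin 0 → ResidueField O) (by rw [Module.finrank_fin_fun]) ⊥ (fun δ => by
      rw [Submodule.mem_bot]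
      refine ⟨fun h => h ▸ ⟨zero_mem _, fun i => rfl⟩, fun ⟨hδt, hδx⟩ => ?_⟩
      exact hsep δ ((hK δ).mpr ⟨hδt, fun v => hδx (Sum.inl v)⟩)
        fun j hj => hδx (Sum.inr ⟨j, hj⟩)) 0 (fun a c _ => Subsingleton.elim a c)
  obtain ⟨f₀, hf₀⟩ := hΨ (z j₀)
  let emb : ((Fin s × Fin 2 × Fin 2 × Fin 2) ⊕ {j : Fin g // j ≠ j₀}) ⊕ Fin 0 →
      (Fin s × Fin 2 × Fin 2 × Fin 2) ⊕ Fin g :=
    Sum.elim (Sum.map id Subtype.val) finZeroElim
  have hXm : ∀ v, (MvPowerSeries.X v : P) ∈ maximalIdeal P := fun v =>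
    (mem_maximalIdeal_mvPowerSeries _).mpr (by simp)
  obtain ⟨ι, hι⟩ := exists_eval (L := O) (R := P) (fun v => MvPowerSeries.X (emb v))
    fun v => hXm _
  have hμι : (μ.comp Φ).comp ι = Ψ := by
    refine RT.LocalRing.algHom_ext_X (fun v => ?_) fun v => ?_
    · rw [AlgHom.comp_apply, hι]; exact hμm _ (hΦm _)
    · rcases v with (v | j) | k
      · rw [AlgHom.comp_apply, hι, hΨX]; rfl
      · rw [AlgHom.comp_apply, hι, hΨX]; rfl
      · exact k.elim0
  refine ⟨j₀, MvPowerSeries.X (Sum.inr j₀) - ι f₀, fun r hr => ?_, ?_⟩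
  · have hrι : r.comp ι = ι := by
      have hne : ∀ v, emb v ≠ Sum.inr j₀ := by
        rintro ((v | j) | k)
        · simp [emb]
        · simpa [emb] using j.2
        · exact k.elim0
      refine RT.LocalRing.algHom_ext_X (fun v => ?_) fun v => ?_
      · rw [AlgHom.comp_apply, hι, hr _ (hne v)]; exact hXm _
      · rw [AlgHom.comp_apply, hι, hr _ (hne v)]
    rw [sub_sub_cancel_left, map_neg, ← AlgHom.comp_apply, hrι]
  · show μ (Φ _) = 0
    rw [map_sub, map_sub, sub_eq_zero]
    exact hf₀.symm.trans (AlgHom.congr_fun hμι f₀).symm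

end Fermat.Agent.Lifting.Rings
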