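import Fermat.Agent.Lifting.Rings.Generic
import Fermat.Agent.Lifting.Rings.SharpEuler
import Fermat.Agent.Lifting.Rings.SharpErase
import Fermat.Agent.Lifting.Rings.FlatStrict

/-!
# Taylor–Wiles rings with an element killed by the sharp condition

For a family `𝒟` and a smaller family `𝒟'` with the sharp bound at `p`, the rings of `𝒟` at the
Taylor–Wiles levels come with an element `X_j + F`, `F` not involving the free variable `X_j`,
killed by every point of type `𝒟'`.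
-/

set_option autoImplicit false

noncomputable section

namespace Fermat.Agent.Lifting.Rings

open IsLocalRing Fermat.Agent.RT GaloisRep
open Deformation (Mat matOf mapRep Γ)

local notation "ℚ̄" => AlgebraicClosure ℚ

variable {O : Type} [CommRing O] [IsDomain O] [IsDiscreteValuationRing O]
  [IsAdicComplete (maximalIdeal O) O] [Finite (ResidueField O)]

set_option maxHeartbeats 400000 in
/-- At every depth: Taylor–Wiles primes avoiding `S ∪ S₀`, the universal ring of `𝒟` presented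
over the local coordinates, and `e = X_j + F` killed by all points of type `𝒟'`. -/
theorem exists_taylorWilesRings_sharp (p : ℕ) [Fact p.Prime] (hp2 : p ≠ 2)
    (hpO : (p : O) ∈ maximalIdeal O)
    (ρbar : ResidualGaloisRep (ResidueField O)) (habs : ρbar.IsAbsolutelyIrreducible)
    (hdet : (GaloisRepAdic.ofResidualGaloisRep ρbar).DetIsCyclotomic p)
    (hTW : ∀ (K : Type) [Field K] [Algebra (ResidueField O) K] (G : Subgroup Γ), G.index = 2 →
      ∀ V : Submodule K (ρbar.baseChange K).V,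
        (∀ σ ∈ G, ∀ x ∈ V, (ρbar.baseChange K).ρ σ x ∈ V) → V = ⊥ ∨ V = ⊤)
    (bbar : Module.Basis (Fin 2) (ResidueField O) ρbar.V)
    (𝒟 𝒟' : Finset ℕ → ∀ ⦃A : Type⦄ [CommRing A] [IsLocalRing A] [Algebra O A],
      GaloisRepAdic A → Prop)
    (h𝒟 : ∀ Q, IsDeformationCondition O (𝒟 Q))
    (h𝒟' : ∀ Q, IsDeformationCondition O (𝒟' Q))
    (himp : ∀ Q, ∀ ⦃A : Type⦄ [CommRing A] [IsLocalRing A] [Algebra O A] ⦃ρ : GaloisRepAdic A⦄,
      𝒟' Q ρ → 𝒟 Q ρ)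
    (h𝒟det : ∀ Q, ∀ ⦃A : Type⦄ [CommRing A] [IsLocalRing A] [Algebra O A] ⦃ρ : GaloisRepAdic A⦄,
      𝒟 Q ρ → ρ.DetIsCyclotomic p)
    (S : Finset ℕ)
    (h𝒟ur : ∀ Q, ∀ ⦃A : Type⦄ [CommRing A] [IsLocalRing A] [Algebra O A] ⦃ρ : GaloisRepAdic A⦄,
      𝒟 Q ρ → ∀ l : ℕ, l.Prime → l ∉ S ∪ Q → ρ.IsUnramifiedAt l)
    (hbar' : ∀ Q, 𝒟' Q (GaloisRepAdic.ofResidualGaloisRep ρbar))
    (P₀ : ValuationSubring ℚ̄) (hGW : AdjointGW p (matOf ρbar.ρ bbar) S P₀)
    (hloc : LocalBoundAtP (matOf ρbar.ρ bbar) 𝒟 P₀)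
    (hloc' : SharpLocalBoundAtP (matOf ρbar.ρ bbar) 𝒟' P₀)
    {s : ℕ} (ℓ : Fin s → ℕ) (hinj : Function.Injective ℓ)
    (hℓ : ∀ i, ℓ i ∈ S ∧ ℓ i ≠ p ∧ (ℓ i).Prime) (hcov : ∀ l ∈ S, l = p ∨ ∃ i, ℓ i = l)
    (T : ∀ i, TamePair p (ℓ i))
    (hres : ∀ i, ∀ τ ∈ (T i).A.inertiaSubgroupIn ℚ, ∃ k : ℕ, ρbar.ρ τ ^ p ^ k = 1)
    (el : Fin s → Fin 2 → Γ) (hel0 : ∀ i, el i 0 = (T i).F) (hel1 : ∀ i, el i 1 = (T i).σ)
    (lift0 : Fin s → Fin 2 → Mat O)
    (hlift0 : ∀ i e, (lift0 i e).map (residue O) = matOf ρbar.ρ bbar (el i e))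
    (S₀ : Finset ℕ) :
    ∃ r : ℕ, ∀ n : ℕ, ∃ qv : Fin r → ℕ, Function.Injective qv ∧
      (∀ i, qv i ∉ S ∧ qv i ∉ S₀ ∧
        IsTWPrime (matOf ρbar.ρ bbar).toHomUnits p (n + 1) (qv i)) ∧
      ∃ (D : DeformationRingData O ρbar (𝒟 (Finset.univ.image qv)))
        (b : Module.Basis (Fin 2) D.R D.ρ.V),
        residueMat D b = mapRep (ResidueField.map (algebraMap O D.R)) (matOf ρbar.ρ bbar) ∧
        ∃ Φ : MvPowerSeries (LocVar s ⊕ Fin (r + (s - 1))) O →ₐ[O]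
            MvPowerSeries (FrameVar s) D.R,
          Function.Surjective Φ ∧
          (∀ i e a c, Φ (MvPowerSeries.X (Sum.inl (i, e, a, c))) =
            frameConj D.R s i (matOf D.ρ.ρ b (el i e)) a c -
              algebraMap O (MvPowerSeries (FrameVar s) D.R) (lift0 i e a c)) ∧
          ∃ (j₀ : Fin (r + (s - 1))) (e : MvPowerSeries (LocVar s ⊕ Fin (r + (s - 1))) O),
            (∀ g : MvPowerSeries (LocVar s ⊕ Fin (r + (s - 1))) O →ₐ[O]
                MvPowerSeries (LocVar s ⊕ Fin (r + (s - 1))) O,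
              (∀ v, v ≠ Sum.inr j₀ → g (MvPowerSeries.X v) = MvPowerSeries.X v) →
              g (e - MvPowerSeries.X (Sum.inr j₀)) = e - MvPowerSeries.X (Sum.inr j₀)) ∧
            ∀ (A : Type) [CommRing A] [IsLocalRing A] [IsNoetherianRing A]
              [IsAdicComplete (maximalIdeal A) A] [Algebra O A] [IsLocalHom (algebraMap O A)],
              Function.Surjective (residue A ∘ algebraMap O A) →
              ∀ (f : D.R →ₐ[O] A) (hf : IsLocalHom (f : D.R →+* A)),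
                𝒟' (Finset.univ.image qv) (D.ρ.baseChangeAlong (f : D.R →+* A) hf) →
                MvPowerSeries.map (f : D.R →+* A) (Φ e) = 0 := by
  classical
  have : CharP (ResidueField O) p := (CharP.charP_iff_prime_eq_zero Fact.out).mpr (by
    rw [← map_natCast (residue O), residue_eq_zero_iff]; exact hpO)
  have hfin := factorsThroughFiniteLevel_matOf ρbar bbar
  have htame : ∀ i, ∀ τ ∈ (T i).A.inertiaSubgroupIn ℚ,
      ∃ k : ℕ, matOf ρbar.ρ bbar τ ^ p ^ k = 1 := fun i τ hτ => by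
    obtain ⟨k, hk⟩ := hres i τ hτ
    exact ⟨k, by rw [← map_pow, RT.matOf_eq_one_iff, map_pow, hk]⟩
  obtain ⟨V, U, hVfin, hV, hVinj, hbound⟩ := exists_dual_selSpace_add_le p (matOf ρbar.ρ bbar) S P₀
    hGW ℓ (fun i => (T i).A) hinj (fun i => ⟨(hℓ i).1, (hℓ i).2.1, (T i).hA⟩) hcov
  refine ⟨Module.finrank (ResidueField O) V, fun n => ?_⟩
  obtain ⟨qv, hinjq, hqv, hker⟩ := exists_taylorWilesSet ρbar bbar p hp2 habs hdet
    (fun K _ _ G hG => hTW K G hG) V hV hVinj ((S ∪ S₀) ∪ U) n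
  set Q := Finset.univ.image qv with hQdef
  have hQ : ∀ q ∈ Q, q ∉ S ∪ U ∧ IsTWPrime (matOf ρbar.ρ bbar).toHomUnits p 1 q := fun q hq => by
    obtain ⟨i, -, rfl⟩ := Finset.mem_image.mp hq
    obtain ⟨hS, hprime, hne, hdvd, hdec⟩ := hqv i
    refine ⟨fun h => hS ?_, hprime, hne, (pow_dvd_pow p (Nat.le_add_left 1 n)).trans hdvd, hdec⟩
    rcases Finset.mem_union.1 h with h | h
    · exact Finset.mem_union_left _ (Finset.mem_union_left _ h)
    · exact Finset.mem_union_right _ h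
  have hV' : ∀ ψ, ψ ∈ (⊥ : Submodule (ResidueField O) (Γ → Mat (ResidueField O))) ↔
      ψ ∈ V ∧ ∀ q ∈ Q, ∀ P' : ValuationSubring ℚ̄, P'.LiesOverPrime q →
        ∀ φ : Γ, P'.IsFrobeniusAt φ q → (ψ φ * matOf ρbar.ρ bbar φ).trace = 0 := fun ψ => by
    rw [Submodule.mem_bot]
    exact ⟨fun h => h ▸ ⟨zero_mem V, fun q _ P _ φ _ => by simp⟩, fun h => hker ψ h.1
      fun i P hP φ hφ => h.2 _ (Finset.mem_image_of_mem qv (Finset.mem_univ i)) P hP φ hφ⟩
  have hcard : Q.card = Module.finrank (ResidueField O) V := by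
    rw [hQdef, Finset.card_image_of_injective _ hinjq, Finset.card_univ, Fintype.card_fin]
  obtain ⟨hfd, hdim⟩ := hbound Q hQ (𝒟 Q) (fun ρ hρ => h𝒟ur Q hρ) 1 (hloc Q).1 (hloc Q).2
  obtain ⟨hfd', hdim'⟩ := hbound Q hQ (𝒟' Q) (fun ρ hρ => h𝒟ur Q (himp Q hρ)) 0 (hloc' Q).1
    (hloc' Q).2
  have hd := hdim ⊥ hV'
  have hd' := hdim' ⊥ hV'
  rw [finrank_bot, hcard] at hd hd'
  refine ⟨qv, hinjq, fun i => ⟨fun h => (hqv i).1 (Finset.mem_union_left _
    (Finset.mem_union_left _ h)), fun h => (hqv i).1 (Finset.mem_union_left _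
    (Finset.mem_union_right _ h)), (hqv i).2⟩, ?_⟩
  have hbar : 𝒟 Q (GaloisRepAdic.ofResidualGaloisRep ρbar) := himp Q (hbar' Q)
  obtain ⟨D⟩ := nonempty_deformationRingData p hpO habs (h𝒟 Q) hbar (S ∪ Q)
    fun _A _ _ _ _ρ h => h𝒟ur _ h
  obtain ⟨D'⟩ := nonempty_deformationRingData p hpO habs (h𝒟' Q) (hbar' Q) (S ∪ Q)
    fun _A _ _ _ _ρ h => h𝒟ur _ (himp _ h)
  obtain ⟨b, hb⟩ := exists_basis_residueMat_eq D bbar
  obtain ⟨π, hπ, b', hb', hb'r⟩ := exists_map_of_imp D D' (himp Q) b bbar hb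
  have hgen : ∀ (𝒞 : ∀ ⦃A : Type⦄ [CommRing A] [IsLocalRing A] [Algebra O A],
      GaloisRepAdic A → Prop), ∀ Z ∈ tangentSet 𝒞 (matOf ρbar.ρ bbar), ∀ i, ∀ X,
      (∀ e, Z (el i e) = adCoboundary (matOf ρbar.ρ bbar) X (el i e)) →
      ∀ d ∈ (T i).A.decompositionSubgroup ℚ, Z d = adCoboundary (matOf ρbar.ρ bbar) X d :=
    fun 𝒞 Z hZ i X hX d hd =>
      tangentSet_eq_adCoboundary_of_tamePair (hℓ i).2.2 (Ne.symm (hℓ i).2.1) hpO (T i) hfin
        (htame i) hZ X (hel1 i ▸ hX 1) (hel0 i ▸ hX 0) hd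
  obtain ⟨Φ, hΦ, hΦX⟩ := exists_frameRing_presentation D b el lift0
    (g := Module.finrank (ResidueField O) V + (s - 1))
    fun B _ _ _ _ _ _ _ _ hresB y hy hnorm hmB F hF =>
      exists_framedGenerators p hpO (h𝒟 Q) D (h𝒟det _ D.isOfType) bbar
        (Deformation.span_residualMatrix_eq_top habs bbar) b hb (fun i => (T i).A.decompositionSubgroup ℚ) el
        (hgen _) (by omega) lift0 hlift0 B hresB y hy hnorm hmB F hF
  obtain ⟨Φ', hΦ', hΦ'X⟩ := exists_frameRing_presentation D' b' el lift0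
    (g := Module.finrank (ResidueField O) V + (s - 1) - 1)
    fun B _ _ _ _ _ _ _ _ hresB y hy hnorm hmB F hF =>
      exists_framedGenerators p hpO (h𝒟' Q) D' (h𝒟det _ (himp Q D'.isOfType)) bbar
        (Deformation.span_residualMatrix_eq_top habs bbar) b' hb'r (fun i => (T i).A.decompositionSubgroup ℚ)
        el (hgen _) (by omega) lift0 hlift0 B hresB y hy hnorm hmB F hF
  obtain ⟨j₀, e, he, heπ⟩ := exists_erase_variable (h𝒟' Q) D D' b bbar π hπ b' hb' hb'r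
    (g := Module.finrank (ResidueField O) V + (s - 1))
    (g' := Module.finrank (ResidueField O) V + (s - 1) - 1) (by omega) el lift0 Φ hΦ hΦX Φ' hΦ' hΦ'X
  refine ⟨D, b, hb, Φ, hΦ, hΦX, j₀, e, he, ?_⟩
  intro A _ _ _ _ _ _ hA f hf hfD
  obtain ⟨φ, rfl⟩ := exists_factor_of_imp D D' (himp Q) b bbar hb π hπ b' hb' hA f hf hfD
  rw [AlgHom.comp_toRingHom, ← MvPowerSeries.map_map, heπ, map_zero]

end Fermat.Agent.Lifting.Rings
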