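import Fermat.Agent.Lifting.Rings.SharpErase
import Fermat.Agent.RT.LocalAtP.Flat
import Fermat.Agent.Density.CharpolyDetermines
import Fermat.Agent.RT.FreyResidual

/-!
# A module receiving a flat representation is killed by what the flat points kill

`C` carries actions of a ring `R` with a representation of type `𝒟` and of a finite algebra `R₀`
with a flat representation, agreeing on Frobenius polynomials, such that the image of `R₀` lies in
that of `R`. Then the image of `R` is a flat point of `R`.
-/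

set_option autoImplicit false
set_option linter.unusedSectionVars false

noncomputable section

namespace Fermat.Agent.Lifting.Rings

open IsLocalRing Fermat.Agent.RT GaloisRep
open Deformation (Mat matOf mapRep Γ)

local notation "ℚ̄" => AlgebraicClosure ℚ

variable {O : Type} [CommRing O] [IsDomain O] [IsDiscreteValuationRing O]
  [IsAdicComplete (maximalIdeal O) O] {ρbar : ResidualGaloisRep (ResidueField O)}
  {𝒟 : ∀ ⦃A : Type⦄ [CommRing A] [IsLocalRing A] [Algebra O A], GaloisRepAdic A → Prop}

/-- A deformation condition passes to complete quotients. -/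
theorem condition_baseChangeAlong_of_surjective (h𝒟 : IsDeformationCondition O 𝒟)
    {R A : Type} [CommRing R] [IsLocalRing R] [IsNoetherianRing R]
    [IsAdicComplete (maximalIdeal R) R] [Algebra O R] [IsLocalHom (algebraMap O R)]
    [CommRing A] [IsLocalRing A] [IsNoetherianRing A] [IsAdicComplete (maximalIdeal A) A]
    [Algebra O A] [IsLocalHom (algebraMap O A)]
    (hR : Function.Surjective (residue R ∘ algebraMap O R))
    (hA : Function.Surjective (residue A ∘ algebraMap O A))
    (f : R →ₐ[O] A) (hf : IsLocalHom (f : R →+* A)) (hfs : Function.Surjective f)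
    {ρ : GaloisRepAdic R} (hρ : 𝒟 ρ) : 𝒟 (ρ.baseChangeAlong (f : R →+* A) hf) := by
  refine (h𝒟.iff_forall_surjective inferInstance hA _).mpr fun B _ _ _ hB q hq hqs => ?_
  have hloc : IsLocalHom ((q.comp f : R →ₐ[O] B) : R →+* B) :=
    @RingHom.isLocalHom_comp _ _ _ _ _ _ (q : A →+* B) (f : R →+* A) hq hf
  have h := (h𝒟.iff_forall_surjective inferInstance hR ρ).mp hρ hB (q.comp f) hloc (hqs.comp hfs)
  let b := Module.finBasisOfFinrankEq R ρ.V ρ.finrank_eq
  obtain ⟨b₁, hb₁⟩ := Deformation.exists_basis_baseChangeAlong ρ b (f : R →+* A) hf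
  obtain ⟨b₂, hb₂⟩ := Deformation.exists_basis_baseChangeAlong
    (ρ.baseChangeAlong (f : R →+* A) hf) b₁ (q : A →+* B) hq
  obtain ⟨b₃, hb₃⟩ := Deformation.exists_basis_baseChangeAlong ρ b
    ((q.comp f : R →ₐ[O] B) : R →+* B) hloc
  refine h𝒟.of_isEquiv hB (Deformation.isEquiv_of_matOf_eq b₃ b₂ ?_) h
  rw [hb₂, hb₁, hb₃]
  exact MonoidHom.ext fun g => Matrix.ext fun i j => rfl

/-- The characteristic polynomials of a base change. -/
theorem charpoly_baseChangeAlong {A B : Type} [CommRing A] [IsLocalRing A] [CommRing B]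
    [IsLocalRing B] (ρ : GaloisRepAdic A) (φ : A →+* B) (hφ : IsLocalHom φ) (g : Γ) :
    LinearMap.charpoly ((ρ.baseChangeAlong φ hφ).ρ g) = (LinearMap.charpoly (ρ.ρ g)).map φ := by
  let b := Module.finBasisOfFinrankEq A ρ.V ρ.finrank_eq
  obtain ⟨b', hb'⟩ := Deformation.exists_basis_baseChangeAlong ρ b φ hφ
  rw [← LinearMap.charpoly_toMatrix _ b', ← LinearMap.charpoly_toMatrix _ b,
    ← Deformation.matOf_apply, ← Deformation.matOf_apply, hb', ← Matrix.charpoly_map]
  rfl

/-- **The kill lemma.** -/
theorem act_coeff_eq_zero_of_flat [Finite (ResidueField O)] {p : ℕ} [Fact p.Prime]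
    (h𝒟 : IsDeformationCondition O 𝒟) (D : DeformationRingData O ρbar 𝒟)
    (bbar : Module.Basis (Fin 2) (ResidueField O) ρbar.V)
    (b : Module.Basis (Fin 2) D.R D.ρ.V)
    (hb : residueMat D b = mapRep (ResidueField.map (algebraMap O D.R)) (matOf ρbar.ρ bbar))
    {C : Type} [AddCommGroup C] [Module O C] [Module.Finite O C]
    (act : D.R →ₐ[O] Module.End O C)
    {R₀ : Type} [CommRing R₀] [IsLocalRing R₀] [Algebra O R₀] [Module.Finite O R₀]
    (ρ₀ : GaloisRepAdic R₀) (hflat : ρ₀.IsFlatAt p) (act₀ : R₀ →ₐ[O] Module.End O C)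
    (G₀ : Set R₀) (hG₀ : Algebra.adjoin O G₀ = ⊤) (hmem : ∀ t ∈ G₀, ∃ x, act x = act₀ t)
    (S : Finset ℕ)
    (hfrob : ∀ ℓ : ℕ, ℓ.Prime → ℓ ∉ S → ∀ P : ValuationSubring ℚ̄, P.LiesOverPrime ℓ →
      ∀ σ : Γ, P.IsFrobeniusAt σ ℓ → ∀ i, act ((LinearMap.charpoly (D.ρ.ρ σ)).coeff i) =
        act₀ ((LinearMap.charpoly (ρ₀.ρ σ)).coeff i))
    {τ : Type} (y : MvPowerSeries τ D.R)
    (hy : ∀ (A : Type) [CommRing A] [IsLocalRing A] [IsNoetherianRing A]
      [IsAdicComplete (maximalIdeal A) A] [Algebra O A] [IsLocalHom (algebraMap O A)],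
      Function.Surjective (residue A ∘ algebraMap O A) →
      ∀ (f : D.R →ₐ[O] A) (hf : IsLocalHom (f : D.R →+* A)),
        𝒟 (D.ρ.baseChangeAlong (f : D.R →+* A) hf) →
        (D.ρ.baseChangeAlong (f : D.R →+* A) hf).IsFlatAt p →
        MvPowerSeries.map (f : D.R →+* A) y = 0)
    (d : τ →₀ ℕ) : act (MvPowerSeries.coeff d y) = 0 := by
  rcases subsingleton_or_nontrivial C with hC | hC
  · exact Subsingleton.elim _ _
  let I := RingHom.ker act
  let A := D.R ⧸ I
  have : Nontrivial A := Ideal.Quotient.nontrivial_iff.2 (RingHom.ker_ne_top act)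
  let f : D.R →ₐ[O] A := Ideal.Quotient.mkₐ O I
  have hfs : Function.Surjective f := Ideal.Quotient.mk_surjective
  have : IsLocalRing A := IsLocalRing.of_surjective' (f : D.R →+* A) hfs
  have hf : IsLocalHom (f : D.R →+* A) := IsLocalHom.of_surjective _ hfs
  have hlocA : IsLocalHom (algebraMap O A) := by
    rw [← f.comp_algebraMap]
    exact RingHom.isLocalHom_comp _ _
  let actA : A →ₐ[O] Module.End O C := Ideal.kerLiftAlg act
  have hactA : Function.Injective actA := Ideal.kerLiftAlg_injective act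
  have hactA' : ∀ x, actA (f x) = act x := fun x => Ideal.kerLiftAlg_mk act x
  have : Module.Finite O (Module.End O C) := inferInstance
  have : Module.Finite O A :=
    have : IsNoetherian O (Module.End O C) := isNoetherian_of_isNoetherianRing_of_finite O _
    Module.Finite.of_injective actA.toLinearMap hactA
  have : IsAdicComplete (maximalIdeal A) A :=
    IsLocalRing.isAdicComplete_of_module_finite (𝒪 := O)
  have hresA : Function.Surjective (residue A ∘ algebraMap O A) := by
    intro z
    obtain ⟨a, rfl⟩ := residue_surjective z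
    obtain ⟨x, rfl⟩ := hfs a
    obtain ⟨c, hc⟩ := D.residue_surjective (residue D.R x)
    refine ⟨c, ?_⟩
    rw [Function.comp_apply, ← f.commutes, ← sub_eq_zero, ← map_sub, residue_eq_zero_iff,
      ← map_sub]
    exact map_nonunit (f : D.R →+* A) _ (by
      rw [← residue_eq_zero_iff, map_sub, sub_eq_zero]
      exact hc)
  -- the map from the flat ring
  have hrange : ∀ t : R₀, act₀ t ∈ act.range := by
    intro t
    have hle : Algebra.adjoin O G₀ ≤ act.range.comap act₀ :=
      Algebra.adjoin_le fun t ht => by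
        obtain ⟨x, hx⟩ := hmem t ht
        exact ⟨x, hx⟩
    exact hle (hG₀ ▸ Algebra.mem_top)
  let h₀ : R₀ →ₐ[O] A := (Ideal.quotientKerEquivRange act).symm.toAlgHom.comp
    (act₀.codRestrict act.range hrange)
  have hh₀ : ∀ t, actA (h₀ t) = act₀ t := fun t => by
    obtain ⟨x, hx⟩ := hfs (h₀ t)
    rw [← hx, hactA']
    have := congrArg (Ideal.quotientKerEquivRange act) hx
    simp only [h₀, AlgHom.comp_apply, AlgEquiv.coe_toAlgHom, AlgEquiv.apply_symm_apply] at this
    exact congrArg Subtype.val this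
  have hloc₀ : IsLocalHom (h₀ : R₀ →+* A) := by
    refine ⟨fun t ht => ?_⟩
    by_contra hnu
    have hP : ((maximalIdeal A).comap (h₀ : R₀ →+* A)).IsMaximal := by
      refine Ideal.isMaximal_of_isIntegral_of_isMaximal_comap (R := O) _ ?_
      rw [Ideal.comap_comap, h₀.comp_algebraMap,
        show (maximalIdeal A).comap (algebraMap O A) = maximalIdeal O from
          Ideal.ext fun c => by simp [IsLocalRing.mem_maximalIdeal]]
      exact maximalIdeal.isMaximal O
    have : t ∈ (maximalIdeal A).comap (h₀ : R₀ →+* A) := by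
      rw [IsLocalRing.eq_maximalIdeal hP]; exact hnu
    exact this ht
  -- the two representations over the image
  set ρA := D.ρ.baseChangeAlong (f : D.R →+* A) hf with hρA
  have hirr : ρA.residual.IsAbsolutelyIrreducible := by
    obtain ⟨bA, hbA⟩ := Deformation.exists_basis_baseChangeAlong D.ρ b (f : D.R →+* A) hf
    obtain ⟨e⟩ := residual_isEquiv_baseChangeAlong D b bbar hb f hf bA hbA
    exact Density.isAbsolutelyIrreducible_of_isEquiv ⟨e.symm⟩
      (isAbsolutelyIrreducible_baseChangeAlong _ _ D.absIrr)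
  have hequiv : ρA.IsEquiv (ρ₀.baseChangeAlong (h₀ : R₀ →+* A) hloc₀) := by
    refine Density.adic_isEquiv_of_frobenius _ _ S hirr fun ℓ hℓ hℓS P hP σ hσ => ?_
    rw [charpoly_baseChangeAlong, charpoly_baseChangeAlong]
    refine Polynomial.ext fun i => hactA ?_
    rw [Polynomial.coeff_map, Polynomial.coeff_map]
    show actA (f _) = actA (h₀ _)
    rw [hactA', hh₀]
    exact hfrob ℓ hℓ hℓS P hP σ hσ i
  have : Finite (ResidueField A) := Finite.of_surjective
    (fun x : ResidueField O => ResidueField.map (algebraMap O A) x) fun z => by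
      obtain ⟨c, rfl⟩ := hresA z
      exact ⟨residue O c, ResidueField.map_residue _ _⟩
  have hflatA : ρA.IsFlatAt p := by
    obtain ⟨e⟩ := hequiv
    exact Density.adic_isFlatAt_of_isEquiv ⟨e.symm⟩ (FlatCond.isFlatAt_baseChangeAlong _ _ hflat)
  have hzero := congrArg (MvPowerSeries.coeff d) (hy A hresA f hf
    (condition_baseChangeAlong_of_surjective h𝒟 D.residue_surjective hresA f hf hfs D.isOfType)
    hflatA)
  rw [MvPowerSeries.coeff_map, map_zero] at hzero
  rw [← hactA']
  exact (congrArg actA hzero).trans (map_zero _)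

end Fermat.Agent.Lifting.Rings
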